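/-
GATE-K / K1-ABS (helper90): approximation for finitely many pairwise incomparable valuation
subrings of a field (Engler–Prestel, *Valued Fields*, 3.2.6–3.2.7), in valuation language.
Mathlib only.

* `exists_inv_geom` : for `a : F` there is `b` (`= 1 / (1 + a + … + a^(k-1))`) lying in every `W i`
  with `a * b` in every `W i`, `b` a unit of `W i` when `a ∈ W i` and a non-unit otherwise;
* `exists_unit_nonunit`, `exists_partition_of_unity` : `y i ≡ 1` at `i`, `≡ 0` at `j ≠ i`, `∑ y = 1`;
* `exists_mem_sub_lt` : `⋂ W i → κ i` is onto; `exists_approx` : CRT, `⋂ W i → ∏ κ i` is onto;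
* `eq_of_le_of_isAlgebraic` : two valuation subrings of an algebraic extension with the same
  restriction to the base field are equal as soon as they are comparable.
-/
import Mathlib

set_option autoImplicit false

namespace Fermat.Agent.GK.MultiVal

open Finset

variable {F : Type*} [Field F] {ι : Type*}

/-- pairwise incomparable family of valuation subrings -/
def Incomparable (W : ι → ValuationSubring F) : Prop := ∀ i j, i ≠ j → ¬ W i ≤ W j

section one

variable (V : ValuationSubring F)

theorem geom_sum_mem {a : F} (ha : a ∈ V) (k : ℕ) : ∑ m ∈ range k, a ^ m ∈ V :=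
  Subring.sum_mem _ fun m _ => pow_mem ha m

/-- if `a ∉ V` then `1 + a + … + a^M` has the valuation of `a ^ M` -/
theorem valuation_geom_sum_of_not_mem {a : F} (ha : a ∉ V) (M : ℕ) :
    V.valuation (∑ m ∈ range (M + 1), a ^ m) = V.valuation a ^ M := by
  have hva : 1 < V.valuation a := by
    rw [← not_le, ValuationSubring.valuation_le_one_iff]; exact ha
  have ha0 : V.valuation a ≠ 0 := (lt_trans zero_lt_one hva).ne'
  have h1 : V.valuation (a - 1) = V.valuation a := by
    apply Valuation.map_sub_eq_of_lt_left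
    rw [map_one]; exact hva
  have h2 : V.valuation (a ^ (M + 1) - 1) = V.valuation a ^ (M + 1) := by
    rw [← map_pow]
    apply Valuation.map_sub_eq_of_lt_left
    rw [map_one, map_pow]
    exact one_lt_pow₀ hva (Nat.succ_ne_zero M)
  have h3 := congrArg V.valuation (geom_sum_mul a (M + 1))
  rw [map_mul, h1, h2, pow_succ] at h3
  exact mul_right_cancel₀ ha0 h3

/-- the natural number killing the obstructions at `V` -/
noncomputable def obstr (a : F) : ℕ := by
  classical
  exact if h : a ∈ V then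
    (if orderOf (IsLocalRing.residue V ⟨a, h⟩) = 0 then 1
      else orderOf (IsLocalRing.residue V ⟨a, h⟩)) *
    (if ringChar (IsLocalRing.ResidueField V) = 0 then 1
      else ringChar (IsLocalRing.ResidueField V))
  else 1

theorem obstr_ne_zero (a : F) : obstr V a ≠ 0 := by
  classical
  unfold obstr
  split_ifs <;> simp_all

theorem orderOf_dvd_obstr {a : F} (h : a ∈ V)
    (ho : orderOf (IsLocalRing.residue V ⟨a, h⟩) ≠ 0) :
    orderOf (IsLocalRing.residue V ⟨a, h⟩) ∣ obstr V a := by
  classical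
  unfold obstr
  rw [dif_pos h, if_neg ho]
  exact dvd_mul_right _ _

theorem ringChar_dvd_obstr {a : F} (h : a ∈ V)
    (ho : ringChar (IsLocalRing.ResidueField V) ≠ 0) :
    ringChar (IsLocalRing.ResidueField V) ∣ obstr V a := by
  classical
  unfold obstr
  rw [dif_pos h, if_neg ho]
  exact dvd_mul_left _ _

/-- if `a ∈ V` and `obstr V a ∣ M` then `1 + a + … + a^M` is a unit of `V` -/
theorem valuation_geom_sum_of_mem {a : F} (ha : a ∈ V) {M : ℕ} (hM : obstr V a ∣ M) :
    V.valuation (∑ m ∈ range (M + 1), a ^ m) = 1 := by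
  set x : V := ⟨a, ha⟩ with hx
  set fx : V := ∑ m ∈ range (M + 1), x ^ m with hfx
  have hcoe : ((fx : V) : F) = ∑ m ∈ range (M + 1), a ^ m := by
    rw [hfx]; push_cast; rfl
  rw [← hcoe, ← ValuationSubring.valuation_eq_one_iff, ← IsLocalRing.notMem_maximalIdeal,
    ← IsLocalRing.residue_eq_zero_iff]
  set ξ := IsLocalRing.residue V x with hξ
  have hres : IsLocalRing.residue V fx = ∑ m ∈ range (M + 1), ξ ^ m := by
    rw [hfx, map_sum]
    exact Finset.sum_congr rfl fun m _ => by rw [map_pow]
  rw [hres]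
  intro h0
  by_cases h1 : ξ = 1
  · -- the sum is `M + 1`
    rw [h1] at h0
    simp only [one_pow, sum_const, card_range, nsmul_eq_mul, mul_one] at h0
    have hdvd := (ringChar.spec (IsLocalRing.ResidueField V) (M + 1)).1 (by exact_mod_cast h0)
    by_cases hc : ringChar (IsLocalRing.ResidueField V) = 0
    · rw [hc, zero_dvd_iff] at hdvd
      exact Nat.succ_ne_zero M hdvd
    · have h2 : ringChar (IsLocalRing.ResidueField V) ∣ M :=
        (ringChar_dvd_obstr V ha hc).trans hM
      have h3 : ringChar (IsLocalRing.ResidueField V) ∣ 1 := (Nat.dvd_add_right h2).1 hdvd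
      exact CharP.ringChar_ne_one (Nat.dvd_one.1 h3)
  · have h2 : ξ ^ (M + 1) = 1 := by
      have := geom_sum_mul ξ (M + 1)
      rw [h0, zero_mul] at this
      exact (sub_eq_zero.1 this.symm)
    have hdvd := orderOf_dvd_of_pow_eq_one h2
    have ho : orderOf ξ ≠ 0 := by
      intro h
      rw [h, zero_dvd_iff] at hdvd
      exact Nat.succ_ne_zero M hdvd
    have h3 : orderOf ξ ∣ M := (orderOf_dvd_obstr V ha ho).trans hM
    have h4 : orderOf ξ ∣ 1 := (Nat.dvd_add_right h3).1 hdvd
    exact h1 (orderOf_eq_one_iff.1 (Nat.dvd_one.1 h4))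

end one

section family

variable (W : ι → ValuationSubring F)

/-- **Engler–Prestel 3.2.6.** For `a : F` there is `b` in every `W i` with `a * b` in every `W i`,
a unit of `W i` if `a ∈ W i`, a non-unit of `W i` if `a ∉ W i`. -/
theorem exists_inv_geom [Finite ι] (a : F) :
    ∃ b : F, (∀ i, a ∈ W i → (W i).valuation b = 1) ∧ (∀ i, a ∉ W i → (W i).valuation b < 1) ∧
      (∀ i, (W i).valuation (a * b) ≤ 1) := by
  classical
  cases nonempty_fintype ι
  set M0 : ℕ := ∏ i, obstr (W i) a with hM0
  have hM0ne : M0 ≠ 0 := Finset.prod_ne_zero_iff.2 fun i _ => obstr_ne_zero (W i) a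
  obtain ⟨M', hM'⟩ : ∃ M', M0 = M' + 1 := ⟨M0 - 1, by omega⟩
  set f : F := ∑ m ∈ range (M0 + 1), a ^ m with hf
  have hin : ∀ i, a ∈ W i → (W i).valuation f = 1 := fun i hi =>
    valuation_geom_sum_of_mem (W i) hi (Finset.dvd_prod_of_mem _ (Finset.mem_univ i))
  have hout : ∀ i, a ∉ W i → (W i).valuation f = (W i).valuation a ^ M0 := fun i hi =>
    valuation_geom_sum_of_not_mem (W i) hi M0
  refine ⟨f⁻¹, fun i hi => ?_, fun i hi => ?_, fun i => ?_⟩
  · rw [map_inv₀, hin i hi, inv_one]
  · have hva : 1 < (W i).valuation a := by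
      rw [← not_le, ValuationSubring.valuation_le_one_iff]; exact hi
    rw [map_inv₀, hout i hi]
    exact inv_lt_one_of_one_lt₀ (one_lt_pow₀ hva hM0ne)
  · by_cases hi : a ∈ W i
    · rw [map_mul, map_inv₀, hin i hi, inv_one, mul_one,
        ValuationSubring.valuation_le_one_iff]
      exact hi
    · have hva : 1 < (W i).valuation a := by
        rw [← not_le, ValuationSubring.valuation_le_one_iff]; exact hi
      have ha0 : (W i).valuation a ≠ 0 := (lt_trans zero_lt_one hva).ne'
      rw [map_mul, map_inv₀, hout i hi, hM', pow_succ, mul_inv, ← mul_assoc,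
        mul_comm ((W i).valuation a), mul_assoc, mul_inv_cancel₀ ha0, mul_one]
      exact inv_le_one_of_one_le₀ (one_le_pow₀ hva.le)

variable {W}

/-- an element of `⋂ W`, unit at `i`, non-unit at all `j ≠ i` -/
theorem exists_unit_nonunit [Finite ι] (hW : Incomparable W) (i : ι) :
    ∃ w : F, (W i).valuation w = 1 ∧ (∀ j, j ≠ i → (W j).valuation w < 1) ∧
      ∀ j, (W j).valuation w ≤ 1 := by
  classical
  cases nonempty_fintype ι
  have hex : ∀ j, j ≠ i → ∃ a, a ∈ W i ∧ a ∉ W j := fun j hj =>
    SetLike.not_le_iff_exists.1 (hW i j (Ne.symm hj))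
  choose a ha1 ha2 using hex
  have hb : ∀ j (hj : j ≠ i), ∃ b : F, (W i).valuation b = 1 ∧ (W j).valuation b < 1 ∧
      ∀ l, (W l).valuation b ≤ 1 := by
    intro j hj
    obtain ⟨b, h1, h2, h3⟩ := exists_inv_geom W (a j hj)
    refine ⟨b, h1 i (ha1 j hj), h2 j (ha2 j hj), fun l => ?_⟩
    by_cases hl : a j hj ∈ W l
    · exact (h1 l hl).le
    · exact (h2 l hl).le
  choose b hb1 hb2 hb3 using hb
  refine ⟨∏ j ∈ (Finset.univ.erase i).attach, b j.1 (Finset.ne_of_mem_erase j.2), ?_, ?_, ?_⟩
  · rw [map_prod]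
    exact Finset.prod_eq_one fun j _ => hb1 _ _
  · intro j hj
    have hjm : j ∈ Finset.univ.erase i := Finset.mem_erase.2 ⟨hj, Finset.mem_univ j⟩
    rw [map_prod, ← Finset.mul_prod_erase _ _ (Finset.mem_attach _ ⟨j, hjm⟩)]
    calc (W j).valuation (b j (Finset.ne_of_mem_erase hjm)) *
          ∏ x ∈ ((Finset.univ.erase i).attach).erase ⟨j, hjm⟩,
            (W j).valuation (b x.1 (Finset.ne_of_mem_erase x.2))
        ≤ (W j).valuation (b j (Finset.ne_of_mem_erase hjm)) * 1 := by
          gcongr
          exact Finset.prod_le_one' fun x _ => hb3 _ _ j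
      _ < 1 := by rw [mul_one]; exact hb2 j _
  · intro j
    rw [map_prod]
    exact Finset.prod_le_one' fun x _ => hb3 _ _ j

/-- **partition of unity**: `y i ≡ 1` at `i`, `y i ≡ 0` at `j ≠ i`, all `y i ∈ ⋂ W`, `∑ y = 1`. -/
theorem exists_partition_of_unity [Fintype ι] [Nonempty ι] (hW : Incomparable W) :
    ∃ y : ι → F, (∀ i j, (W j).valuation (y i) ≤ 1) ∧ (∀ i, (W i).valuation (y i - 1) < 1) ∧
      (∀ i j, j ≠ i → (W j).valuation (y i) < 1) ∧ ∑ i, y i = 1 := by
  classical
  choose w hw1 hw2 hw3 using fun i => exists_unit_nonunit hW i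
  set s : F := ∑ i, w i with hs
  -- `s` is a unit everywhere
  have hsv : ∀ j, (W j).valuation s = 1 := by
    intro j
    have hsplit : s = w j + ∑ i ∈ Finset.univ.erase j, w i := by
      rw [hs, Finset.add_sum_erase _ _ (Finset.mem_univ j)]
    have hrest : (W j).valuation (∑ i ∈ Finset.univ.erase j, w i) < 1 :=
      Valuation.map_sum_lt _ one_ne_zero fun i hi => hw2 i j (Finset.ne_of_mem_erase hi).symm
    rw [hsplit, Valuation.map_add_eq_of_lt_left _ (by rw [hw1 j]; exact hrest), hw1 j]
  have hs0 : s ≠ 0 := by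
    obtain ⟨j⟩ := ‹Nonempty ι›
    intro h0
    have := hsv j
    rw [h0, map_zero] at this
    exact zero_ne_one this
  refine ⟨fun i => w i / s, fun i j => ?_, fun i => ?_, fun i j hj => ?_, ?_⟩
  · rw [map_div₀, hsv j, div_one]; exact hw3 i j
  · have h1 : w i / s - 1 = -(∑ l ∈ Finset.univ.erase i, w l) / s := by
      field_simp
      rw [hs, ← Finset.add_sum_erase _ _ (Finset.mem_univ i)]
      ring
    rw [h1, map_div₀, hsv i, div_one, Valuation.map_neg]
    exact Valuation.map_sum_lt _ one_ne_zero fun l hl => hw2 l i (Finset.ne_of_mem_erase hl).symm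
  · rw [map_div₀, hsv j, div_one]; exact hw2 i j hj
  · rw [← Finset.sum_div, div_self hs0]

/-- inverse modulo the maximal ideal at `i`, inside `⋂ W` -/
theorem exists_inv_mod [Fintype ι] [Nonempty ι] (hW : Incomparable W) (i : ι) {s : F}
    (hs : ∀ j, (W j).valuation s ≤ 1) (hsi : (W i).valuation s = 1) :
    ∃ s' : F, (∀ j, (W j).valuation s' ≤ 1) ∧ (W i).valuation (s * s' - 1) < 1 := by
  classical
  obtain ⟨y, hy1, hy2, hy3, -⟩ := exists_partition_of_unity hW
  set t : F := s * y i + (1 - y i) with ht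
  have hti : (W i).valuation (t - s) < 1 := by
    have : t - s = (s - 1) * (y i - 1) := by rw [ht]; ring
    rw [this, map_mul]
    have h1 : (W i).valuation (s - 1) ≤ 1 :=
      (Valuation.map_sub _ _ _).trans (max_le (hs i) (by rw [map_one]))
    calc (W i).valuation (s - 1) * (W i).valuation (y i - 1)
        ≤ 1 * (W i).valuation (y i - 1) := by gcongr
      _ < 1 := by rw [one_mul]; exact hy2 i
  have htv : ∀ j, (W j).valuation t = 1 := by
    intro j
    by_cases hj : j = i
    · subst hj
      have : t = s + (t - s) := by ring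
      rw [this, Valuation.map_add_eq_of_lt_left _ (by rw [hsi]; exact hti), hsi]
    · have : t = 1 + y i * (s - 1) := by rw [ht]; ring
      rw [this]
      apply Valuation.map_one_add_of_lt
      rw [map_mul]
      have h1 : (W j).valuation (s - 1) ≤ 1 :=
        (Valuation.map_sub _ _ _).trans (max_le (hs j) (by rw [map_one]))
      calc (W j).valuation (y i) * (W j).valuation (s - 1)
          ≤ (W j).valuation (y i) * 1 := by gcongr
        _ < 1 := by rw [mul_one]; exact hy3 i j hj
  have ht0 : t ≠ 0 := by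
    intro h0
    have := htv i
    rw [h0, map_zero] at this
    exact zero_ne_one this
  refine ⟨t⁻¹, fun j => by rw [map_inv₀, htv j, inv_one], ?_⟩
  have : s * t⁻¹ - 1 = -(t - s) * t⁻¹ := by field_simp; ring
  rw [this, map_mul, Valuation.map_neg, map_inv₀, htv i, inv_one, mul_one]
  exact hti

/-- `⋂ W → κ i` is onto -/
theorem exists_mem_sub_lt [Fintype ι] [Nonempty ι] (hW : Incomparable W) (i : ι) {a : F}
    (ha : a ∈ W i) :
    ∃ r : F, (∀ j, (W j).valuation r ≤ 1) ∧ (W i).valuation (r - a) < 1 := by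
  obtain ⟨b, hb1, hb2, hb3⟩ := exists_inv_geom W a
  have hbW : ∀ j, (W j).valuation b ≤ 1 := fun j => by
    by_cases hj : a ∈ W j
    · exact (hb1 j hj).le
    · exact (hb2 j hj).le
  obtain ⟨s', hs'1, hs'2⟩ := exists_inv_mod hW i hbW (hb1 i ha)
  refine ⟨a * b * s', fun j => ?_, ?_⟩
  · rw [map_mul]
    exact mul_le_one' (hb3 j) (hs'1 j)
  · have : a * b * s' - a = a * (b * s' - 1) := by ring
    rw [this, map_mul]
    calc (W i).valuation a * (W i).valuation (b * s' - 1)
        ≤ 1 * (W i).valuation (b * s' - 1) := by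
          gcongr
          exact (ValuationSubring.valuation_le_one_iff _ _).2 ha
      _ < 1 := by rw [one_mul]; exact hs'2

/-- **CRT / approximation**: `⋂ W → ∏ κ i` is onto. -/
theorem exists_approx [Fintype ι] (hW : Incomparable W) (a : ι → F) (ha : ∀ i, a i ∈ W i) :
    ∃ x : F, (∀ j, (W j).valuation x ≤ 1) ∧ ∀ i, (W i).valuation (x - a i) < 1 := by
  classical
  rcases isEmpty_or_nonempty ι with hι | hι
  · exact ⟨0, fun j => (IsEmpty.false j).elim, fun j => (IsEmpty.false j).elim⟩
  obtain ⟨y, hy1, hy2, hy3, hy4⟩ := exists_partition_of_unity hW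
  choose r hr1 hr2 using fun i => exists_mem_sub_lt hW i (ha i)
  refine ⟨∑ i, r i * y i, fun j => ?_, fun j => ?_⟩
  · rw [ValuationSubring.valuation_le_one_iff]
    refine Subring.sum_mem _ fun i _ => ?_
    show r i * y i ∈ W j
    rw [← ValuationSubring.valuation_le_one_iff, map_mul]
    exact mul_le_one' (hr1 i j) (hy1 i j)
  · have hsplit : ∑ i, r i * y i - a j
        = (r j * (y j - 1) + (r j - a j)) + ∑ i ∈ Finset.univ.erase j, r i * y i := by
      rw [← Finset.add_sum_erase _ _ (Finset.mem_univ j)]; ring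
    rw [hsplit]
    refine lt_of_le_of_lt (Valuation.map_add _ _ _) (max_lt ?_ ?_)
    · refine lt_of_le_of_lt (Valuation.map_add _ _ _) (max_lt ?_ (hr2 j))
      rw [map_mul]
      calc (W j).valuation (r j) * (W j).valuation (y j - 1)
          ≤ 1 * (W j).valuation (y j - 1) := by gcongr; exact hr1 j j
        _ < 1 := by rw [one_mul]; exact hy2 j
    · refine Valuation.map_sum_lt _ one_ne_zero fun i hi => ?_
      rw [map_mul]
      calc (W j).valuation (r i) * (W j).valuation (y i)
          ≤ 1 * (W j).valuation (y i) := by gcongr; exact hr1 i j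
        _ < 1 := by rw [one_mul]; exact hy3 i j (Finset.ne_of_mem_erase hi).symm

end family

section algebraic

open Polynomial

/-- In an algebraic extension `F / K₀`, two comparable valuation subrings of `F` with the same
restriction to `K₀` are equal (so distinct extensions of one valuation are incomparable). -/
theorem eq_of_le_of_isAlgebraic {K₀ : Type*} [Field K₀] [Algebra K₀ F]
    [Algebra.IsAlgebraic K₀ F] {W W' : ValuationSubring F} (hle : W ≤ W')
    (hc : ∀ c : K₀, algebraMap K₀ F c ∈ W' → algebraMap K₀ F c ∈ W) : W = W' := by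
  classical
  refine le_antisymm hle fun x hx' => ?_
  by_contra hx
  have hvx : 1 < W.valuation x := by
    rw [← not_le, ValuationSubring.valuation_le_one_iff]; exact hx
  have hx0 : x ≠ 0 := fun h => hx (h ▸ zero_mem W)
  have hvy : W.valuation x⁻¹ < 1 := by
    rw [map_inv₀]; exact inv_lt_one_of_one_lt₀ hvx
  have hv'x : W'.valuation x = 1 := by
    refine le_antisymm ((ValuationSubring.valuation_le_one_iff _ _).2 hx') ?_
    have h1 : W'.valuation x⁻¹ ≤ 1 :=
      (ValuationSubring.valuation_le_one_iff _ _).2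
        (hle ((ValuationSubring.valuation_le_one_iff _ _).1 hvy.le))
    rw [map_inv₀] at h1
    have hpos : 0 < W'.valuation x := by
      rw [zero_lt_iff, ne_eq, map_eq_zero]; exact hx0
    exact (inv_le_one₀ hpos).1 h1
  -- transfer of strict inequalities on constants from `W` to `W'`
  have htrans : ∀ d : K₀, W.valuation (algebraMap K₀ F d) < 1 →
      W'.valuation (algebraMap K₀ F d) < 1 := by
    intro d hd
    by_contra hnot
    rw [not_lt] at hnot
    have hd0 : d ≠ 0 := by
      rintro rfl
      rw [map_zero, map_zero] at hnot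
      exact absurd hnot (not_le.2 zero_lt_one)
    have hdF : algebraMap K₀ F d ≠ 0 := by rwa [ne_eq, map_eq_zero]
    have h1 : algebraMap K₀ F d⁻¹ ∈ W' := by
      rw [← ValuationSubring.valuation_le_one_iff, map_inv₀, map_inv₀]
      exact inv_le_one_of_one_le₀ hnot
    have h2 := hc _ h1
    rw [← ValuationSubring.valuation_le_one_iff, map_inv₀, map_inv₀] at h2
    have hpos : 0 < W.valuation (algebraMap K₀ F d) := by
      rw [zero_lt_iff, ne_eq, map_eq_zero]; exact hdF
    exact absurd ((inv_le_one₀ hpos).1 h2) (not_le.2 hd)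
  -- an algebraic relation for `x`
  obtain ⟨p, hp0, hpx⟩ := Algebra.IsAlgebraic.isAlgebraic (R := K₀) x
  set u : ℕ → _ := fun m => W.valuation (algebraMap K₀ F (p.coeff m)) with hu
  have hSne : p.support.Nonempty := Polynomial.support_nonempty.2 hp0
  set S' := p.support.filter (fun m => ∀ m' ∈ p.support, u m' ≤ u m) with hS'
  have hS'ne : S'.Nonempty := by
    obtain ⟨m, hm, hmax⟩ := Finset.exists_max_image p.support u hSne
    exact ⟨m, Finset.mem_filter.2 ⟨hm, hmax⟩⟩
  set m0 := S'.max' hS'ne with hm0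
  have hm0S' : m0 ∈ S' := Finset.max'_mem _ _
  obtain ⟨hm0S, hm0max⟩ := Finset.mem_filter.1 hm0S'
  have hc0 : p.coeff m0 ≠ 0 := Polynomial.mem_support_iff.1 hm0S
  have hc0F : algebraMap K₀ F (p.coeff m0) ≠ 0 := by rwa [ne_eq, map_eq_zero]
  have hu0 : u m0 ≠ 0 := by rw [hu]; simpa using hc0
  have hgt : ∀ m ∈ p.support, m0 < m → u m < u m0 := by
    intro m hm hlt
    by_contra hnot
    rw [not_lt] at hnot
    have : m ∈ S' := Finset.mem_filter.2 ⟨hm, fun m' hm' => (hm0max m' hm').trans hnot⟩
    exact absurd (Finset.le_max' _ _ this) (not_le.2 hlt)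
  -- the relation
  have hsum : ∑ m ∈ p.support, algebraMap K₀ F (p.coeff m) * x ^ m = 0 := by
    rw [← hpx, Polynomial.aeval_def, Polynomial.eval₂_eq_sum, Polynomial.sum_def]
  set T : ℕ → F := fun m =>
    (algebraMap K₀ F (p.coeff m0))⁻¹ * x⁻¹ ^ m0 * (algebraMap K₀ F (p.coeff m) * x ^ m) with hT
  have hTsum : ∑ m ∈ p.support, T m = 0 := by
    rw [hT, ← Finset.mul_sum, hsum, mul_zero]
  have hxy : ∀ n : ℕ, x⁻¹ ^ n * x ^ n = 1 := fun n => by
    rw [← mul_pow, inv_mul_cancel₀ hx0, one_pow]
  have hT0 : T m0 = 1 := by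
    simp only [hT]
    calc (algebraMap K₀ F (p.coeff m0))⁻¹ * x⁻¹ ^ m0 * (algebraMap K₀ F (p.coeff m0) * x ^ m0)
        = ((algebraMap K₀ F (p.coeff m0))⁻¹ * algebraMap K₀ F (p.coeff m0)) *
            (x⁻¹ ^ m0 * x ^ m0) := by ring
      _ = 1 := by rw [hxy, inv_mul_cancel₀ hc0F, one_mul]
  have hTlt : ∀ m ∈ p.support.erase m0, W.valuation (T m) < 1 := by
    intro m hm
    obtain ⟨hne, hmS⟩ := Finset.mem_erase.1 hm
    rcases lt_or_gt_of_ne hne with hlt | hlt
    · -- `m < m0`
      have hTm : T m = algebraMap K₀ F (p.coeff m) * (algebraMap K₀ F (p.coeff m0))⁻¹ *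
          x⁻¹ ^ (m0 - m) := by
        have hpow : x⁻¹ ^ m0 = x⁻¹ ^ (m0 - m) * x⁻¹ ^ m := by
          rw [← pow_add]; congr 1; omega
        simp only [hT]
        rw [hpow]
        calc (algebraMap K₀ F (p.coeff m0))⁻¹ * (x⁻¹ ^ (m0 - m) * x⁻¹ ^ m) *
              (algebraMap K₀ F (p.coeff m) * x ^ m)
            = algebraMap K₀ F (p.coeff m) * (algebraMap K₀ F (p.coeff m0))⁻¹ *
                x⁻¹ ^ (m0 - m) * (x⁻¹ ^ m * x ^ m) := by ring
          _ = _ := by rw [hxy, mul_one]
      rw [hTm, map_mul, map_mul, map_inv₀, map_pow]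
      have h1 : W.valuation (algebraMap K₀ F (p.coeff m)) *
          (W.valuation (algebraMap K₀ F (p.coeff m0)))⁻¹ ≤ 1 := by
        rw [← div_eq_mul_inv]
        exact div_le_one_of_le₀ (hm0max m hmS) zero_le
      have h2 : W.valuation x⁻¹ ^ (m0 - m) < 1 :=
        pow_lt_one₀ zero_le hvy (by omega)
      calc _ ≤ 1 * W.valuation x⁻¹ ^ (m0 - m) := by gcongr
        _ < 1 := by rw [one_mul]; exact h2
    · -- `m0 < m`
      have hTm : T m = algebraMap K₀ F (p.coeff m / p.coeff m0) * x ^ (m - m0) := by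
        have hpow : x ^ m = x ^ (m - m0) * x ^ m0 := by
          rw [← pow_add]; congr 1; omega
        simp only [hT]
        rw [hpow, map_div₀, div_eq_mul_inv]
        calc (algebraMap K₀ F (p.coeff m0))⁻¹ * x⁻¹ ^ m0 *
              (algebraMap K₀ F (p.coeff m) * (x ^ (m - m0) * x ^ m0))
            = algebraMap K₀ F (p.coeff m) * (algebraMap K₀ F (p.coeff m0))⁻¹ *
                x ^ (m - m0) * (x⁻¹ ^ m0 * x ^ m0) := by ring
          _ = _ := by rw [hxy, mul_one]
      have hd : W.valuation (algebraMap K₀ F (p.coeff m / p.coeff m0)) < 1 := by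
        rw [map_div₀, map_div₀]
        exact (div_lt_one₀ (zero_lt_iff.2 hu0)).2 (hgt m hmS hlt)
      have h' : W'.valuation (T m) < 1 := by
        rw [hTm, map_mul, map_pow, hv'x, one_pow, mul_one]
        exact htrans _ hd
      have := ValuationSubring.nonunits_le_nonunits.2 hle
      exact (ValuationSubring.mem_nonunits_iff _).1
        (this ((ValuationSubring.mem_nonunits_iff _).2 h'))
  have h1 : (1 : F) = -∑ m ∈ p.support.erase m0, T m := by
    rw [← Finset.add_sum_erase _ _ hm0S, hT0] at hTsum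
    linear_combination hTsum
  have h2 : W.valuation (1 : F) < 1 := by
    rw [h1, Valuation.map_neg]
    exact Valuation.map_sum_lt _ one_ne_zero hTlt
  rw [map_one] at h2
  exact lt_irrefl _ h2

end algebraic

end Fermat.Agent.GK.MultiVal
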