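/-
GATE-K / K1-ABS (helper90): orthonormal families, orthonormal bases, unit balls and their reductions
for an abstract ultrametric "norm pair" `(B, I)` on a field extension `F / K`:

* `B : Subring F` is the closed unit ball, `I : AddSubgroup F` the open unit ball (an ideal of `B`),
* `A = B ∩ K` is a valuation subring of `K`, `𝔪_A • B ⊆ I`, `1 ∉ I`.

For `B = Rw`, `I = 𝔪_w` (one valuation subring) this is the J1 theory of
`Fermat.Agent.GJ.Lattice.OrthoBall`; for `B = ⋂ W i`, `I = ⋂ 𝔪 i` it is the theory of the sup norm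
of finitely many valuations (`Fermat.Agent.GK.MultiVal.Family`), whose residue ring is
`∏ κ i` (not a field).  Mathlib + `GJ/Lattice/GaussBasis` (Gaussian elimination).
-/
import Mathlib
import Fermat.Agent.GJ.Lattice.GaussBasis

set_option autoImplicit false

namespace Fermat.Agent.GK.MultiVal

open Module Fermat.Agent.GJ

variable {K F : Type*} [Field K] [Field F] [Algebra K F]

/-- An ultrametric norm pair: closed unit ball `B`, open unit ball `I`. -/
structure IsNormPair (A : ValuationSubring K) (B : Subring F) (I : AddSubgroup F) : Prop where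
  algebraMap_mem_iff : ∀ a : K, algebraMap K F a ∈ B ↔ a ∈ A
  le : ∀ x ∈ I, x ∈ B
  mul_mem : ∀ b ∈ B, ∀ x ∈ I, b * x ∈ I
  smul_mem : ∀ a ∈ A.nonunits, ∀ x ∈ B, algebraMap K F a * x ∈ I
  one_notMem : (1 : F) ∉ I

section basics

variable {A : ValuationSubring K} {B : Subring F} {I : AddSubgroup F}

theorem IsNormPair.algebraMap_mem_rad_iff (h : IsNormPair A B I) (a : K) :
    algebraMap K F a ∈ I ↔ a ∈ A.nonunits := by
  constructor
  · intro ha
    have haA : a ∈ A := (h.algebraMap_mem_iff a).1 (h.le _ ha)
    rw [ValuationSubring.mem_nonunits_iff]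
    by_contra hnot
    rw [not_lt] at hnot
    have ha1 : A.valuation a = 1 :=
      le_antisymm ((ValuationSubring.valuation_le_one_iff _ _).2 haA) hnot
    have ha0 : a ≠ 0 := by
      rintro rfl
      rw [map_zero] at ha1
      exact zero_ne_one ha1
    have hinv : a⁻¹ ∈ A := by
      rw [← ValuationSubring.valuation_le_one_iff, map_inv₀, ha1, inv_one]
    have := h.mul_mem _ ((h.algebraMap_mem_iff _).2 hinv) _ ha
    rw [← map_mul, inv_mul_cancel₀ ha0, map_one] at this
    exact h.one_notMem this
  · intro ha
    have := h.smul_mem a ha 1 B.one_mem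
    rwa [mul_one] at this

theorem IsNormPair.smul_mem_ball (h : IsNormPair A B I) {a : K} (ha : a ∈ A) {x : F}
    (hx : x ∈ B) : a • x ∈ B := by
  rw [Algebra.smul_def]
  exact B.mul_mem ((h.algebraMap_mem_iff a).2 ha) hx

theorem IsNormPair.smul_mem_rad (h : IsNormPair A B I) {a : K} (ha : a ∈ A.nonunits) {x : F}
    (hx : x ∈ B) : a • x ∈ I := by
  rw [Algebra.smul_def]
  exact h.smul_mem a ha x hx

theorem IsNormPair.smul_mem_rad' (h : IsNormPair A B I) {a : K} (ha : a ∈ A) {x : F}
    (hx : x ∈ I) : a • x ∈ I := by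
  rw [Algebra.smul_def]
  exact h.mul_mem _ ((h.algebraMap_mem_iff a).2 ha) x hx

/-- a unit of the ball -/
def IsBallUnit (B : Subring F) (s : F) : Prop := s ∈ B ∧ s⁻¹ ∈ B ∧ s ≠ 0

theorem IsBallUnit.mul_mem_iff {s : F} (hs : IsBallUnit B s) {x : F} : s * x ∈ B ↔ x ∈ B := by
  refine ⟨fun h => ?_, fun h => B.mul_mem hs.1 h⟩
  have := B.mul_mem hs.2.1 h
  rwa [← mul_assoc, inv_mul_cancel₀ hs.2.2, one_mul] at this

theorem IsBallUnit.mul_mem_rad_iff (h : IsNormPair A B I) {s : F} (hs : IsBallUnit B s) {x : F} :
    s * x ∈ I ↔ x ∈ I := by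
  refine ⟨fun hx => ?_, fun hx => h.mul_mem _ hs.1 _ hx⟩
  have := h.mul_mem _ hs.2.1 _ hx
  rwa [← mul_assoc, inv_mul_cancel₀ hs.2.2, one_mul] at this

theorem IsBallUnit.one : IsBallUnit B 1 := ⟨B.one_mem, by rw [inv_one]; exact B.one_mem, one_ne_zero⟩

theorem IsBallUnit.mul {s t : F} (hs : IsBallUnit B s) (ht : IsBallUnit B t) :
    IsBallUnit B (s * t) :=
  ⟨B.mul_mem hs.1 ht.1, by rw [mul_inv]; exact B.mul_mem hs.2.1 ht.2.1,
    mul_ne_zero hs.2.2 ht.2.2⟩

theorem IsBallUnit.prod {ι : Type*} (s : Finset ι) (f : ι → F) (hf : ∀ i ∈ s, IsBallUnit B (f i)) :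
    IsBallUnit B (∏ i ∈ s, f i) := by
  classical
  induction s using Finset.induction_on with
  | empty => simpa using IsBallUnit.one
  | insert a s ha ih =>
    rw [Finset.prod_insert ha]
    exact (hf a (Finset.mem_insert_self a s)).mul
      (ih fun i hi => hf i (Finset.mem_insert_of_mem hi))

end basics

section family

variable (A : ValuationSubring K) (B : Subring F) (I : AddSubgroup F)

/-- An orthonormal family: elements of the unit ball whose reductions modulo `I` are linearly
independent over the residue field of `A` (stated without residue rings). -/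
structure IsOrthoFamily {J : Type*} (g : J → F) : Prop where
  mem : ∀ j, g j ∈ B
  indep : ∀ c : J →₀ K, (∀ j, c j ∈ A) → Finsupp.linearCombination K g c ∈ I →
    ∀ j, c j ∈ A.nonunits

variable {A B I} {J : Type*} {g : J → F}

theorem IsOrthoFamily.linearCombination_mem (h : IsNormPair A B I)
    (hg : IsOrthoFamily A B I g) (c : J →₀ K) (hc : ∀ j, c j ∈ A) :
    Finsupp.linearCombination K g c ∈ B := by
  rw [Finsupp.linearCombination_apply, Finsupp.sum]
  exact B.sum_mem fun j _ => h.smul_mem_ball (hc j) (hg.mem j)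

/-- A maximal coefficient of a nonzero finitely supported family. -/
theorem exists_max_coeff (A : ValuationSubring K) (l : J →₀ K) (hl : l ≠ 0) :
    ∃ j0, l j0 ≠ 0 ∧ ∀ j, A.valuation (l j) ≤ A.valuation (l j0) := by
  classical
  obtain ⟨j0, hj0, hmax⟩ := Finset.exists_max_image l.support (fun j => A.valuation (l j))
    (Finsupp.support_nonempty_iff.mpr hl)
  refine ⟨j0, Finsupp.mem_support_iff.mp hj0, fun j => ?_⟩
  by_cases hj : j ∈ l.support
  · exact hmax j hj
  · rw [Finsupp.notMem_support_iff.mp hj, map_zero]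
    exact zero_le

/-- normalisation: dividing by a maximal coefficient gives an element of the unit sphere -/
theorem IsOrthoFamily.normalize (h : IsNormPair A B I) (hg : IsOrthoFamily A B I g)
    (l : J →₀ K) (j0 : J) (h0 : l j0 ≠ 0) (hmax : ∀ j, A.valuation (l j) ≤ A.valuation (l j0)) :
    (∀ j, ((l j0)⁻¹ • l) j ∈ A) ∧ Finsupp.linearCombination K g ((l j0)⁻¹ • l) ∈ B ∧
      Finsupp.linearCombination K g ((l j0)⁻¹ • l) ∉ I := by
  set a := l j0 with ha
  have hva : A.valuation a ≠ 0 := (Valuation.ne_zero_iff _).mpr h0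
  have hl'A : ∀ j, (a⁻¹ • l) j ∈ A := by
    intro j
    rw [← ValuationSubring.valuation_le_one_iff, Finsupp.smul_apply, smul_eq_mul, map_mul,
      map_inv₀]
    calc (A.valuation a)⁻¹ * A.valuation (l j) ≤ (A.valuation a)⁻¹ * A.valuation a :=
          mul_le_mul' le_rfl (hmax j)
      _ = 1 := inv_mul_cancel₀ hva
  refine ⟨hl'A, hg.linearCombination_mem h _ hl'A, fun hmem => ?_⟩
  have h1 := hg.indep _ hl'A hmem j0
  rw [Finsupp.smul_apply, smul_eq_mul, ← ha, inv_mul_cancel₀ h0,
    ValuationSubring.mem_nonunits_iff, map_one] at h1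
  exact lt_irrefl _ h1

theorem IsOrthoFamily.linearCombination_mem_iff (h : IsNormPair A B I)
    (hg : IsOrthoFamily A B I g) (l : J →₀ K) :
    Finsupp.linearCombination K g l ∈ B ↔ ∀ j, l j ∈ A := by
  refine ⟨fun hmem => ?_, hg.linearCombination_mem h l⟩
  by_cases hl : l = 0
  · intro j; rw [hl]; exact A.zero_mem
  obtain ⟨j0, h0, hmax⟩ := exists_max_coeff A l hl
  obtain ⟨-, -, hnot⟩ := hg.normalize h l j0 h0 hmax
  have ha : l j0 ∈ A := by
    by_contra hna
    have hinv : (l j0)⁻¹ ∈ A.nonunits := by
      rw [ValuationSubring.mem_nonunits_iff, map_inv₀]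
      have : 1 < A.valuation (l j0) := by
        rw [← not_le, ValuationSubring.valuation_le_one_iff]; exact hna
      exact inv_lt_one_of_one_lt₀ this
    apply hnot
    rw [map_smul]
    exact h.smul_mem_rad hinv hmem
  intro j
  rw [← ValuationSubring.valuation_le_one_iff]
  exact (hmax j).trans ((ValuationSubring.valuation_le_one_iff _ _).2 ha)

theorem IsOrthoFamily.linearCombination_mem_rad_iff (h : IsNormPair A B I)
    (hg : IsOrthoFamily A B I g) (l : J →₀ K) :
    Finsupp.linearCombination K g l ∈ I ↔ ∀ j, l j ∈ A.nonunits := by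
  constructor
  · intro hmem
    exact hg.indep l ((hg.linearCombination_mem_iff h l).1 (h.le _ hmem)) hmem
  · intro hl
    rw [Finsupp.linearCombination_apply, Finsupp.sum]
    exact I.sum_mem fun j _ => h.smul_mem_rad (hl j) (hg.mem j)

theorem IsOrthoFamily.linearIndependent (h : IsNormPair A B I)
    (hg : IsOrthoFamily A B I g) : LinearIndependent K g := by
  rw [linearIndependent_iff]
  intro l hl0
  by_contra hl
  obtain ⟨j0, h0, hmax⟩ := exists_max_coeff A l hl
  obtain ⟨-, -, hnot⟩ := hg.normalize h l j0 h0 hmax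
  apply hnot
  rw [map_smul, hl0, smul_zero]
  exact I.zero_mem

end family

section basis

variable (A : ValuationSubring K) (B : Subring F) (I : AddSubgroup F)

/-- An orthonormal basis of a subspace `V ≤ F`: membership of the closed (resp. open) unit ball is
read off coordinatewise. -/
def IsOrthoBasis {ι : Type*} (V : Submodule K F) (e : Basis ι K V) : Prop :=
  ∀ x : V, ((x : F) ∈ B ↔ ∀ i, e.repr x i ∈ A) ∧
    ((x : F) ∈ I ↔ ∀ i, e.repr x i ∈ A.nonunits)

variable {A B I} {J : Type*} {g : J → F}

/-- **Existence of orthonormal bases.**  `V` is a finite dimensional subspace which a unit `s` of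
the ball moves into the span of the orthonormal family `g`. -/
theorem exists_orthoBasis (h : IsNormPair A B I)
    (hg : IsOrthoFamily A B I g) (V : Submodule K F) [FiniteDimensional K V]
    (hden : ∃ s : F, IsBallUnit B s ∧ ∀ x ∈ V, s * x ∈ Submodule.span K (Set.range g)) :
    ∃ e : Basis (Fin (finrank K V)) K V, IsOrthoBasis A B I V e := by
  classical
  obtain ⟨s, hs1, hsV⟩ := hden
  have hs0 : s ≠ 0 := hs1.2.2
  have hli := hg.linearIndependent h
  let T : V →ₗ[K] Submodule.span K (Set.range g) :=
    { toFun := fun x => ⟨s * x, hsV x x.2⟩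
      map_add' := fun x y => by
        apply Subtype.ext
        simp [mul_add]
      map_smul' := fun c x => by
        apply Subtype.ext
        simp }
  let φ : J → V →ₗ[K] K := fun j => (Finsupp.lapply j).comp (hli.repr.comp T)
  have hφ : ∀ j (x : V), φ j x = hli.repr (T x) j := fun _ _ => rfl
  have hsum : ∀ x : V, Finsupp.linearCombination K g (hli.repr (T x)) = s * (x : F) :=
    fun x => hli.linearCombination_repr (T x)
  have hne : ∀ x : V, x ≠ 0 → hli.repr (T x) ≠ 0 := by
    intro x hx h0
    have h1 := hsum x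
    rw [h0, map_zero] at h1
    rcases mul_eq_zero.mp h1.symm with h2 | h2
    · exact hs0 h2
    · exact hx (Subtype.ext h2)
  have hNA : GaussLattice.NormAttained A.valuation φ := by
    intro x hx
    obtain ⟨j0, h0, hmax⟩ := exists_max_coeff A _ (hne x hx)
    exact ⟨j0, h0, hmax⟩
  obtain ⟨e, idx, hG⟩ := GaussLattice.exists_gaussBasis A.valuation φ hNA
  refine ⟨e, fun x => ⟨?_, ?_⟩⟩
  · have h1 := hG.forall_apply_le_iff_repr x 1
    rw [← hs1.mul_mem_iff, ← hsum x, hg.linearCombination_mem_iff h]
    simp only [hφ, ValuationSubring.valuation_le_one_iff] at h1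
    exact h1
  · have h1 := hG.forall_apply_lt_iff_repr x (one_ne_zero)
    rw [← hs1.mul_mem_rad_iff h, ← hsum x, hg.linearCombination_mem_rad_iff h]
    simp only [hφ, ← ValuationSubring.mem_nonunits_iff] at h1
    exact h1

variable {ι : Type*} {V : Submodule K F} {e : Basis ι K V}

theorem IsOrthoBasis.mem (he : IsOrthoBasis A B I V e) (i : ι) : ((e i : V) : F) ∈ B := by
  classical
  refine (he (e i)).1.mpr fun j => ?_
  rw [Basis.repr_self, Finsupp.single_apply]
  split_ifs
  · exact A.one_mem
  · exact A.zero_mem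

end basis

section package

variable (A : ValuationSubring K) (B : Subring F) (I : AddSubgroup F)

/-- every finite dimensional subspace has an orthonormal basis -/
def HasOrthoBases : Prop :=
  ∀ (V : Submodule K F), FiniteDimensional K V →
    ∃ e : Basis (Fin (finrank K V)) K V, IsOrthoBasis A B I V e

/-- Denominators: every finite dimensional subspace is moved into the span of `g` by a unit. -/
def HasDenominators (K : Type*) {F : Type*} [Field K] [Field F] [Algebra K F]
    (B : Subring F) {J : Type*} (g : J → F) : Prop :=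
  ∀ (V : Submodule K F), FiniteDimensional K V →
    ∃ s : F, IsBallUnit B s ∧ ∀ x ∈ V, s * x ∈ Submodule.span K (Set.range g)

variable {A B I}

theorem hasOrthoBases_of_family (h : IsNormPair A B I) {J : Type*}
    {g : J → F} (hg : IsOrthoFamily A B I g) (hden : HasDenominators K B g) :
    HasOrthoBases A B I :=
  fun V hV => by
    have := hV
    exact exists_orthoBasis h hg V (hden V hV)

/-- Denominators from a multiplicative set of units stabilising the span. -/
theorem hasDenominators_of_submonoid {J : Type*} {g : J → F} (S : Submonoid F)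
    (hS1 : ∀ s ∈ S, IsBallUnit B s)
    (hSW : ∀ s ∈ S, ∀ x ∈ Submodule.span K (Set.range g),
      s * x ∈ Submodule.span K (Set.range g))
    (hSd : ∀ x : F, ∃ s ∈ S, s * x ∈ Submodule.span K (Set.range g)) :
    HasDenominators K B g := by
  classical
  intro V hV
  have := hV
  set W := Submodule.span K (Set.range g) with hW
  let b := Module.finBasis K V
  choose s hsS hsb using fun i => hSd ((b i : V) : F)
  refine ⟨∏ i, s i, hS1 _ (Submonoid.prod_mem S fun i _ => hsS i), ?_⟩
  have hle : V ≤ W.comap (LinearMap.mulLeft K (∏ i, s i)) := by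
    have hV' : V = Submodule.span K (Set.range fun i => ((b i : V) : F)) := by
      have h1 := b.span_eq
      have h2 := congrArg (Submodule.map V.subtype) h1
      rw [Submodule.map_span, Submodule.map_top, Submodule.range_subtype, ← Set.range_comp] at h2
      exact h2.symm
    refine le_trans (le_of_eq hV') (Submodule.span_le.mpr ?_)
    rintro _ ⟨i, rfl⟩
    show (∏ j, s j) * ((b i : V) : F) ∈ W
    rw [← Finset.mul_prod_erase Finset.univ s (Finset.mem_univ i), mul_comm (s i), mul_assoc]
    exact hSW _ (Submonoid.prod_mem S fun j _ => hsS j) _ (hsb i)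
  intro x hx
  exact hle hx

/-- Orthonormal bases in "function form" (no `Basis`, no subtype). -/
theorem HasOrthoBases.exists_family (h : HasOrthoBases A B I) (V : Submodule K F)
    [hV : FiniteDimensional K V] :
    ∃ e : Fin (finrank K V) → F, (∀ i, e i ∈ V) ∧ (∀ i, e i ∈ B) ∧ LinearIndependent K e ∧
      Submodule.span K (Set.range e) = V ∧
      (∀ c : Fin (finrank K V) → K, (∑ i, c i • e i) ∈ B ↔ ∀ i, c i ∈ A) ∧
      (∀ c : Fin (finrank K V) → K, (∑ i, c i • e i) ∈ I ↔ ∀ i, c i ∈ A.nonunits) := by
  obtain ⟨e, he⟩ := h V hV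
  have hsum : ∀ c : Fin (finrank K V) → K,
      ((∑ i, c i • e i : V) : F) = ∑ i, c i • ((e i : V) : F) := fun c => by
    rw [Submodule.coe_sum]
    rfl
  refine ⟨fun i => ((e i : V) : F), fun i => (e i).2, he.mem, ?_, ?_, fun c => ?_, fun c => ?_⟩
  · exact e.linearIndependent.map' V.subtype (Submodule.ker_subtype V)
  · have h1 := e.span_eq
    have h2 := congrArg (Submodule.map V.subtype) h1
    rw [Submodule.map_span, Submodule.map_top, Submodule.range_subtype, ← Set.range_comp] at h2
    exact h2
  · have h1 := (he (∑ i, c i • e i)).1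
    rw [hsum, Basis.repr_sum_self] at h1
    exact h1
  · have h1 := (he (∑ i, c i • e i)).2
    rw [hsum, Basis.repr_sum_self] at h1
    exact h1

/-- **Unramified**: every nonzero element is a scalar times an element of the unit sphere. -/
theorem HasOrthoBases.exists_smul_sphere (h : HasOrthoBases A B I) {x : F} (hx : x ≠ 0) :
    ∃ (c : K) (u : F), c ≠ 0 ∧ u ∈ B ∧ u ∉ I ∧ x = c • u := by
  classical
  set V : Submodule K F := Submodule.span K {x} with hV
  obtain ⟨e, he⟩ := h V inferInstance
  have hd : finrank K V = 1 := finrank_span_singleton hx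
  have hpos : 0 < finrank K V := by omega
  set i0 : Fin (finrank K V) := ⟨0, hpos⟩ with hi0
  have huniq : ∀ i : Fin (finrank K V), i = i0 := fun i =>
    Fin.ext (by have := i.2; simp [hi0]; omega)
  set x' : V := ⟨x, Submodule.mem_span_singleton_self x⟩ with hx'
  have hsum := e.sum_repr x'
  have hsum2 : ∑ i, e.repr x' i • e i = e.repr x' i0 • e i0 :=
    Finset.sum_eq_single i0 (fun i _ hi => absurd (huniq i) hi)
      (fun h => absurd (Finset.mem_univ _) h)
  have hsum' : x' = e.repr x' i0 • e i0 := hsum.symm.trans hsum2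
  set c := e.repr x' i0 with hc
  have hc0 : c ≠ 0 := by
    intro h0
    rw [h0, zero_smul] at hsum'
    exact hx (congrArg Subtype.val hsum')
  refine ⟨c, ((e i0 : V) : F), hc0, he.mem i0, ?_, ?_⟩
  · intro hn
    have h1 := (he (e i0)).2.mp hn i0
    rw [Basis.repr_self, Finsupp.single_eq_same, ValuationSubring.mem_nonunits_iff, map_one] at h1
    exact lt_irrefl _ h1
  · have := congrArg (fun y : V => (y : F)) hsum'
    simpa using this

end package

section reduction

variable (A : ValuationSubring K) (B : Subring F) (I : AddSubgroup F)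
  {k Λ : Type*} [Field k] [AddCommGroup Λ] [Module k Λ] (res : A →+* k) (red : B →+ Λ)

/-- A compatible pair of reduction maps `res : A → k`, `red : B → Λ` (`Λ` a `k`-module). -/
structure IsRedSystem (h : IsNormPair A B I) : Prop where
  res_surj : Function.Surjective res
  res_ker : ∀ a : A, res a = 0 ↔ (a : K) ∈ A.nonunits
  red_ker : ∀ x : B, red x = 0 ↔ (x : F) ∈ I
  red_smul : ∀ (a : A) (x : B),
    red ⟨(a : K) • (x : F), h.smul_mem_ball a.2 x.2⟩ = res a • red x

/-- The reduction of the unit ball of `V`, as a `k`-subspace of `Λ`. -/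
def redBall (V : Submodule K F) : Submodule k Λ :=
  Submodule.span k (red '' {x : B | (x : F) ∈ V})

variable {A B I res red}

theorem red_mem_redBall {V : Submodule K F} (x : B) (hx : (x : F) ∈ V) :
    red x ∈ redBall (k := k) B red V :=
  Submodule.subset_span ⟨x, hx, rfl⟩

variable {h : IsNormPair A B I}

/-- Integral combinations of elements of the ball, as elements of the ball. -/
theorem IsRedSystem.exists_comb (hR : IsRedSystem A B I res red h) {ι : Type*} [Fintype ι]
    (c : ι → A) (y : ι → B) :
    ∃ z : B, (z : F) = ∑ i, (c i : K) • (y i : F) ∧ red z = ∑ i, res (c i) • red (y i) := by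
  refine ⟨∑ i, (⟨(c i : K) • (y i : F), h.smul_mem_ball (c i).2 (y i).2⟩ : B), ?_, ?_⟩
  · rw [AddSubmonoidClass.coe_finsetSum]
  · rw [map_sum]
    exact Finset.sum_congr rfl fun i _ => hR.red_smul (c i) (y i)

variable {ι : Type*} [Fintype ι] {V : Submodule K F} {e : Basis ι K V}

/-- The reductions of an orthonormal basis are linearly independent. -/
theorem IsOrthoBasis.linearIndependent_red (hR : IsRedSystem A B I res red h)
    (he : IsOrthoBasis A B I V e) :
    LinearIndependent k fun i => red ⟨((e i : V) : F), he.mem i⟩ := by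
  classical
  rw [Fintype.linearIndependent_iff]
  intro γ hγ i
  choose c hc using fun i => hR.res_surj (γ i)
  obtain ⟨z, hz1, hz2⟩ := hR.exists_comb c fun i => (⟨((e i : V) : F), he.mem i⟩ : B)
  have hz0 : red z = 0 := by
    rw [hz2, ← hγ]
    exact Finset.sum_congr rfl fun i _ => by rw [hc i]
  have hzn := (hR.red_ker z).mp hz0
  set x : V := ∑ i, (c i : K) • e i with hx
  have hxz : (x : F) = (z : F) := by
    rw [hz1, hx, Submodule.coe_sum]
    exact Finset.sum_congr rfl fun i _ => rfl
  rw [← hxz] at hzn
  have h1 := (he x).2.mp hzn i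
  rw [hx, Basis.repr_sum_self] at h1
  rw [← hc i]
  exact (hR.res_ker (c i)).mpr h1

/-- The reduction of the unit ball is spanned by the reductions of an orthonormal basis. -/
theorem IsOrthoBasis.redBall_eq_span (hR : IsRedSystem A B I res red h)
    (he : IsOrthoBasis A B I V e) :
    redBall B red V = Submodule.span k (Set.range fun i => red ⟨((e i : V) : F), he.mem i⟩) := by
  apply le_antisymm
  · rw [redBall, Submodule.span_le]
    rintro _ ⟨x, hxV, rfl⟩
    have hc := (he ⟨x, hxV⟩).1.mp x.2
    obtain ⟨z, hz1, hz2⟩ := hR.exists_comb (fun i => (⟨e.repr ⟨x, hxV⟩ i, hc i⟩ : A))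
      fun i => (⟨((e i : V) : F), he.mem i⟩ : B)
    have hzx : z = x := by
      apply Subtype.ext
      rw [hz1]
      have h1 := congrArg (fun y : V => (y : F)) (e.sum_repr ⟨x, hxV⟩)
      simp only [Submodule.coe_sum, Submodule.coe_smul] at h1
      exact h1
    rw [← hzx, hz2]
    exact Submodule.sum_mem _ fun i _ =>
      Submodule.smul_mem _ _ (Submodule.subset_span ⟨i, rfl⟩)
  · rw [Submodule.span_le]
    rintro _ ⟨i, rfl⟩
    exact red_mem_redBall _ (e i).2

theorem IsOrthoBasis.finrank_redBall (hR : IsRedSystem A B I res red h)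
    (he : IsOrthoBasis A B I V e) : finrank k (redBall (k := k) B red V) = Fintype.card ι := by
  rw [he.redBall_eq_span hR]
  exact finrank_span_eq_card (he.linearIndependent_red hR)

/-- Every element of the reduction of the unit ball is the reduction of an element. -/
theorem IsOrthoBasis.exists_of_mem_redBall (hR : IsRedSystem A B I res red h)
    (he : IsOrthoBasis A B I V e) {y : Λ} (hy : y ∈ redBall (k := k) B red V) :
    ∃ x : B, (x : F) ∈ V ∧ red x = y := by
  rw [he.redBall_eq_span hR] at hy
  obtain ⟨γ, rfl⟩ := (Submodule.mem_span_range_iff_exists_fun k).mp hy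
  choose c hc using fun i => hR.res_surj (γ i)
  obtain ⟨z, hz1, hz2⟩ := hR.exists_comb c fun i => (⟨((e i : V) : F), he.mem i⟩ : B)
  refine ⟨z, ?_, ?_⟩
  · rw [hz1]
    exact Submodule.sum_mem _ fun i _ => V.smul_mem _ (e i).2
  · rw [hz2]
    exact Finset.sum_congr rfl fun i _ => by rw [hc i]

end reduction

section reductionPackage

variable {A : ValuationSubring K} {B : Subring F} {I : AddSubgroup F}
  {k Λ : Type*} [Field k] [AddCommGroup Λ] [Module k Λ] {res : A →+* k} {red : B →+ Λ}
  {h : IsNormPair A B I}

/-- **Dimension of the reduction.** -/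
theorem HasOrthoBases.finrank_redBall (ho : HasOrthoBases A B I)
    (hR : IsRedSystem A B I res red h)
    (V : Submodule K F) [hV : FiniteDimensional K V] :
    finrank k (redBall (k := k) B red V) = finrank K V := by
  obtain ⟨e, he⟩ := ho V hV
  rw [he.finrank_redBall hR, Fintype.card_fin]

theorem HasOrthoBases.finiteDimensional_redBall (ho : HasOrthoBases A B I)
    (hR : IsRedSystem A B I res red h) (V : Submodule K F) [hV : FiniteDimensional K V] :
    FiniteDimensional k (redBall (k := k) B red V) := by
  obtain ⟨e, he⟩ := ho V hV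
  rw [he.redBall_eq_span hR]
  exact FiniteDimensional.span_of_finite k (Set.finite_range _)

/-- **Surjectivity of reduction when dimensions agree.** -/
theorem HasOrthoBases.exists_lift (ho : HasOrthoBases A B I) (hR : IsRedSystem A B I res red h)
    (V : Submodule K F) [hV : FiniteDimensional K V] (W : Submodule k Λ) [FiniteDimensional k W]
    (hle : redBall B red V ≤ W) (hdim : finrank k W ≤ finrank K V) {y : Λ} (hy : y ∈ W) :
    ∃ x : B, (x : F) ∈ V ∧ red x = y := by
  obtain ⟨e, he⟩ := ho V hV
  have heq : redBall B red V = W :=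
    Submodule.eq_of_le_of_finrank_le hle (by rw [ho.finrank_redBall hR V]; exact hdim)
  rw [← heq] at hy
  exact he.exists_of_mem_redBall hR hy

theorem HasOrthoBases.redBall_eq_of_le (ho : HasOrthoBases A B I)
    (hR : IsRedSystem A B I res red h)
    (V : Submodule K F) [hV : FiniteDimensional K V] (W : Submodule k Λ) [FiniteDimensional k W]
    (hle : redBall B red V ≤ W) (hdim : finrank k W ≤ finrank K V) : redBall B red V = W :=
  Submodule.eq_of_le_of_finrank_le hle (by rw [ho.finrank_redBall hR V]; exact hdim)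

end reductionPackage

end Fermat.Agent.GK.MultiVal
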