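/-
GATE-K / K1-ABS part 3 (helper90): finitely many valuation subrings over one Gauss chart.

`W : ι → ValuationSubring F` (finitely many, pairwise incomparable), all lying over the same
valuation subring `A` of `K`, and `t : F` a common Gauss chart (the powers of `t` are orthonormal
for every `W i`).  Residue fields do not appear: "the residue degree of `W i` over the chart is at
least `card (π ⁻¹ i)`" is expressed by an orthonormal chart family `t ^ n * y j` (`π j = i`).

* `ball W`, `rad W` : the closed / open unit ball of the norm `max_i |x|_i`; `isNormPair_family`.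
* `IsGaussChartFor`, `IsChartOrtho` and the Gauss restriction lemma
  `IsGaussChartFor.exists_scalar` (the restriction to `K(t)` does not depend on `W i`), hence
  `incomparable_of_injective`.
* `exists_joint_family` : approximation turns the local families into ONE orthonormal chart family
  for `(ball W, rad W)`.
* `card_le_finrank` : the fundamental inequality `∑ f_i ≤ [F : K(t)]`.
* `hasOrthoBases_of_finrank_le` : equality in the fundamental inequality gives orthonormal bases
  for the semilocal ring `ball W` (`HasOrthoBases A (ball W) (rad W)`).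
-/
import Mathlib
import Fermat.Agent.GK.MultiVal.Approx
import Fermat.Agent.GK.MultiVal.NormBall
import Fermat.Agent.GJ.Lattice.OrthoChart

set_option autoImplicit false

open Module Polynomial IntermediateField

namespace Fermat.Agent.GK.MultiVal

open Fermat.Agent.GJ.Ortho (chartFamily)

variable {K F : Type*} [Field K] [Field F] [Algebra K F] {ι : Type*}

/-! ### Balls of a family of valuation subrings -/

/-- the open unit ball of a valuation subring, as an additive subgroup -/
def vrad (Rw : ValuationSubring F) : AddSubgroup F where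
  carrier := {x | Rw.valuation x < 1}
  zero_mem' := by
    show Rw.valuation 0 < 1
    rw [map_zero]; exact zero_lt_one
  add_mem' := fun {x y} hx hy =>
    lt_of_le_of_lt (Rw.valuation.map_add x y) (max_lt hx hy)
  neg_mem' := fun {x} hx => by
    show Rw.valuation (-x) < 1
    rw [Valuation.map_neg]; exact hx

theorem mem_vrad {Rw : ValuationSubring F} {x : F} : x ∈ vrad Rw ↔ Rw.valuation x < 1 := Iff.rfl

/-- the closed unit ball of `max_i |x|_i` -/
def ball (W : ι → ValuationSubring F) : Subring F := ⨅ i, (W i).toSubring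

/-- the open unit ball of `max_i |x|_i` -/
def rad (W : ι → ValuationSubring F) : AddSubgroup F := ⨅ i, vrad (W i)

theorem mem_ball {W : ι → ValuationSubring F} {x : F} : x ∈ ball W ↔ ∀ i, x ∈ W i := by
  rw [ball, Subring.mem_iInf]
  exact Iff.rfl

theorem mem_rad {W : ι → ValuationSubring F} {x : F} :
    x ∈ rad W ↔ ∀ i, (W i).valuation x < 1 := by
  rw [rad, AddSubgroup.mem_iInf]
  exact Iff.rfl

theorem isNormPair_single {A : ValuationSubring K} {Rw : ValuationSubring F}
    (hA : ∀ a : K, algebraMap K F a ∈ Rw ↔ a ∈ A) : IsNormPair A Rw.toSubring (vrad Rw) where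
  algebraMap_mem_iff := hA
  le := fun x hx => (Rw.valuation_le_one_iff x).mp (le_of_lt hx)
  mul_mem := fun b hb x hx => by
    show Rw.valuation (b * x) < 1
    rw [map_mul]
    have h1 : Rw.valuation b ≤ 1 := (Rw.valuation_le_one_iff b).mpr hb
    calc Rw.valuation b * Rw.valuation x ≤ 1 * Rw.valuation x := mul_le_mul' h1 le_rfl
      _ = Rw.valuation x := one_mul _
      _ < 1 := hx
  smul_mem := fun a ha x hx => by
    show Rw.valuation (algebraMap K F a * x) < 1
    rw [map_mul]
    have h1 : Rw.valuation x ≤ 1 := (Rw.valuation_le_one_iff x).mpr hx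
    have h2 : Rw.valuation (algebraMap K F a) < 1 :=
      (Fermat.Agent.GJ.Ortho.valuation_algebraMap_lt_one_iff hA a).mpr
        ((ValuationSubring.mem_nonunits_iff _).mp ha)
    calc Rw.valuation (algebraMap K F a) * Rw.valuation x
        ≤ Rw.valuation (algebraMap K F a) * 1 := mul_le_mul' le_rfl h1
      _ = Rw.valuation (algebraMap K F a) := mul_one _
      _ < 1 := h2
  one_notMem := fun h => by
    have h1 : Rw.valuation (1 : F) < 1 := h
    rw [map_one] at h1
    exact lt_irrefl _ h1

theorem isNormPair_family [Nonempty ι] {A : ValuationSubring K} {W : ι → ValuationSubring F}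
    (hA : ∀ i (a : K), algebraMap K F a ∈ W i ↔ a ∈ A) : IsNormPair A (ball W) (rad W) where
  algebraMap_mem_iff := fun a => by
    rw [mem_ball]
    constructor
    · intro h
      obtain ⟨i⟩ := ‹Nonempty ι›
      exact (hA i a).mp (h i)
    · intro h i
      exact (hA i a).mpr h
  le := fun x hx => mem_ball.mpr fun i => (isNormPair_single (hA i)).le x (mem_rad.mp hx i)
  mul_mem := fun b hb x hx => mem_rad.mpr fun i =>
    (isNormPair_single (hA i)).mul_mem b (mem_ball.mp hb i) x (mem_rad.mp hx i)
  smul_mem := fun a ha x hx => mem_rad.mpr fun i =>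
    (isNormPair_single (hA i)).smul_mem a ha x (mem_ball.mp hx i)
  one_notMem := fun h => by
    obtain ⟨i⟩ := ‹Nonempty ι›
    exact (isNormPair_single (hA i)).one_notMem (mem_rad.mp h i)

theorem isBallUnit_ball_iff [Nonempty ι] {W : ι → ValuationSubring F} {s : F} :
    IsBallUnit (ball W) s ↔ ∀ i, (W i).valuation s = 1 := by
  constructor
  · rintro ⟨h1, h2, h0⟩ i
    have h3 : (W i).valuation s ≤ 1 := ((W i).valuation_le_one_iff s).mpr (mem_ball.mp h1 i)
    have h4 : (W i).valuation s⁻¹ ≤ 1 := ((W i).valuation_le_one_iff _).mpr (mem_ball.mp h2 i)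
    rw [map_inv₀] at h4
    have hv0 : (W i).valuation s ≠ 0 := (Valuation.ne_zero_iff _).mpr h0
    have h5 : 1 ≤ (W i).valuation s := by
      rw [← inv_inv ((W i).valuation s)]
      exact (one_le_inv₀ (by rw [zero_lt_iff]; exact inv_ne_zero hv0)).mpr h4
    exact le_antisymm h3 h5
  · intro h
    obtain ⟨i0⟩ := ‹Nonempty ι›
    have h0 : s ≠ 0 := by
      intro hs
      have := h i0
      rw [hs, map_zero] at this
      exact zero_ne_one this
    refine ⟨mem_ball.mpr fun i => ((W i).valuation_le_one_iff s).mp (le_of_eq (h i)),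
      mem_ball.mpr fun i => ?_, h0⟩
    rw [← ValuationSubring.valuation_le_one_iff, map_inv₀, h i, inv_one]

/-! ### Gauss charts -/

section gauss

variable (A : ValuationSubring K) (Rw : ValuationSubring F) (t : F)

/-- `t` is a Gauss chart of `Rw` over `A`: the powers of `t` are orthonormal (the restriction of
`Rw` to `K(t)` is the Gauss valuation ring). -/
def IsGaussChartFor : Prop := IsOrthoFamily A Rw.toSubring (vrad Rw) (fun n : ℕ => t ^ n)

/-- The chart family `t ^ n * y m` is orthonormal for `Rw`. -/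
def IsChartOrtho {M : Type*} (y : M → F) : Prop :=
  IsOrthoFamily A Rw.toSubring (vrad Rw) (chartFamily t y)

variable {A Rw t}

theorem linearCombination_pow (t : F) (p : K[X]) :
    Finsupp.linearCombination K (fun n : ℕ => t ^ n) p.toFinsupp.coeff = aeval t p := by
  rw [Finsupp.linearCombination_apply, Polynomial.aeval_def, Polynomial.eval₂_eq_sum,
    Polynomial.sum, Finsupp.sum]
  refine Finset.sum_congr rfl fun n _ => ?_
  rw [Algebra.smul_def]
  rfl

theorem IsGaussChartFor.mem (hG : IsGaussChartFor A Rw t) : t ∈ Rw := by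
  have := IsOrthoFamily.mem hG 1
  simpa using this

theorem IsGaussChartFor.aeval_mem_iff (hA : ∀ a : K, algebraMap K F a ∈ Rw ↔ a ∈ A)
    (hG : IsGaussChartFor A Rw t) (p : K[X]) : aeval t p ∈ Rw ↔ ∀ n, p.coeff n ∈ A := by
  rw [← linearCombination_pow]
  exact hG.linearCombination_mem_iff (isNormPair_single hA) p.toFinsupp.coeff

theorem IsGaussChartFor.valuation_aeval_lt_one_iff
    (hA : ∀ a : K, algebraMap K F a ∈ Rw ↔ a ∈ A)
    (hG : IsGaussChartFor A Rw t) (p : K[X]) :
    Rw.valuation (aeval t p) < 1 ↔ ∀ n, p.coeff n ∈ A.nonunits := by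
  rw [← linearCombination_pow]
  exact hG.linearCombination_mem_rad_iff (isNormPair_single hA) p.toFinsupp.coeff

/-- a coefficient of maximal norm -/
theorem exists_max_coeff_poly (A : ValuationSubring K) {p : K[X]} (hp : p ≠ 0) :
    ∃ n0, p.coeff n0 ≠ 0 ∧ ∀ n, A.valuation (p.coeff n) ≤ A.valuation (p.coeff n0) := by
  have h0 : p.toFinsupp.coeff ≠ 0 := fun h => hp (by
    ext n
    have h1 : p.toFinsupp.coeff n = 0 := by rw [h]; rfl
    exact h1)
  exact exists_max_coeff A p.toFinsupp.coeff h0

/-- **Gauss norm**: the norm of `p(t)` is the maximal norm of a coefficient. -/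
theorem IsGaussChartFor.valuation_aeval (hA : ∀ a : K, algebraMap K F a ∈ Rw ↔ a ∈ A)
    (hG : IsGaussChartFor A Rw t) {p : K[X]} {n0 : ℕ} (h0 : p.coeff n0 ≠ 0)
    (hmax : ∀ n, A.valuation (p.coeff n) ≤ A.valuation (p.coeff n0)) :
    Rw.valuation (aeval t p) = Rw.valuation (algebraMap K F (p.coeff n0)) := by
  obtain ⟨-, h1, h2⟩ := hG.normalize (isNormPair_single hA) p.toFinsupp.coeff n0 h0 hmax
  rw [map_smul, linearCombination_pow] at h1 h2
  have h3 : Rw.valuation ((p.coeff n0)⁻¹ • aeval t p) = 1 := by
    refine le_antisymm ((Rw.valuation_le_one_iff _).mpr h1) (not_lt.mp h2)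
  rw [Algebra.smul_def, map_mul, map_inv₀, map_inv₀] at h3
  have hc : Rw.valuation (algebraMap K F (p.coeff n0)) ≠ 0 :=
    (Valuation.ne_zero_iff _).mpr fun h => h0 ((map_eq_zero _).mp h)
  have h4 := (inv_mul_eq_one₀ hc).mp h3
  exact h4.symm

/-- a polynomial in `t` with coefficients in `A`, one of them a unit, is a unit of `Rw` -/
theorem IsGaussChartFor.valuation_aeval_eq_one (hA : ∀ a : K, algebraMap K F a ∈ Rw ↔ a ∈ A)
    (hG : IsGaussChartFor A Rw t) {p : K[X]} {n0 : ℕ} (h0 : p.coeff n0 ≠ 0)
    (hmax : ∀ n, A.valuation (p.coeff n) ≤ A.valuation (p.coeff n0)) :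
    Rw.valuation (aeval t (C (p.coeff n0)⁻¹ * p)) = 1 := by
  rw [map_mul, aeval_C, map_mul, hG.valuation_aeval hA h0 hmax, ← map_mul, ← map_mul,
    inv_mul_cancel₀ h0, map_one, map_one]

/-- **Gauss restriction lemma**: on `K(t)` the valuation of a Gauss chart does not depend on the
valuation subring. -/
theorem exists_scalar_of_mem_adjoin (A : ValuationSubring K) (t : F) {c : F} (hc : c ∈ K⟮t⟯) :
    ∃ a : K, ∀ Rw : ValuationSubring F, (∀ a : K, algebraMap K F a ∈ Rw ↔ a ∈ A) →
      IsGaussChartFor A Rw t → Rw.valuation c = Rw.valuation (algebraMap K F a) := by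
  obtain ⟨p, q, rfl⟩ := (mem_adjoin_simple_iff K c).mp hc
  by_cases hp : p = 0
  · refine ⟨0, fun Rw _ _ => ?_⟩
    rw [hp, map_zero, zero_div, map_zero, map_zero, map_zero]
  by_cases hq : q = 0
  · refine ⟨0, fun Rw _ _ => ?_⟩
    rw [hq, map_zero, div_zero, map_zero, map_zero, map_zero]
  obtain ⟨n0, hn0, hpmax⟩ := exists_max_coeff_poly A hp
  obtain ⟨m0, hm0, hqmax⟩ := exists_max_coeff_poly A hq
  refine ⟨p.coeff n0 / q.coeff m0, fun Rw hA hG => ?_⟩
  rw [map_div₀, hG.valuation_aeval hA hn0 hpmax, hG.valuation_aeval hA hm0 hqmax, map_div₀,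
    map_div₀]

/-- distinct valuation subrings with a common Gauss chart `t` are incomparable when `F / K(t)` is
algebraic -/
theorem incomparable_of_injective [Algebra.IsAlgebraic K⟮t⟯ F] {W : ι → ValuationSubring F}
    (hinj : Function.Injective W) (hA : ∀ i (a : K), algebraMap K F a ∈ W i ↔ a ∈ A)
    (hG : ∀ i, IsGaussChartFor A (W i) t) : Incomparable W := by
  intro i j hij hle
  apply hij
  apply hinj
  refine eq_of_le_of_isAlgebraic (K₀ := K⟮t⟯) hle fun c hcj => ?_
  obtain ⟨a, ha⟩ := exists_scalar_of_mem_adjoin A t c.2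
  have hi := ha (W i) (hA i) (hG i)
  have hj := ha (W j) (hA j) (hG j)
  have hcF : algebraMap K⟮t⟯ F c = (c : F) := rfl
  rw [hcF] at hcj ⊢
  rw [← ValuationSubring.valuation_le_one_iff] at hcj ⊢
  rw [hj, ValuationSubring.valuation_le_one_iff, hA j] at hcj
  rw [hi, ValuationSubring.valuation_le_one_iff, hA i]
  exact hcj

end gauss

/-! ### The joint chart family -/

section joint

variable {A : ValuationSubring K} {W : ι → ValuationSubring F} {t : F}
  {J : Type*} {π : J → ι} {y : J → F}

/-- Step A: by approximation, lifts can be chosen in the ball and small at the other places. -/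
theorem exists_adjusted [Fintype ι] (hW : Incomparable W) (hy : ∀ j, y j ∈ W (π j)) :
    ∃ x : J → F, (∀ j, x j ∈ ball W) ∧ (∀ j i, i ≠ π j → (W i).valuation (x j) < 1) ∧
      ∀ j, (W (π j)).valuation (x j - y j) < 1 := by
  classical
  have h : ∀ j, ∃ x : F, (∀ i, (W i).valuation x ≤ 1) ∧
      ∀ i, (W i).valuation (x - (if i = π j then y j else 0)) < 1 := by
    intro j
    refine exists_approx hW (fun i => if i = π j then y j else 0) (fun i => ?_)
    by_cases h : i = π j
    · rw [if_pos h, h]; exact hy j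
    · rw [if_neg h]; exact zero_mem _
  choose x hx1 hx2 using h
  refine ⟨x, fun j => mem_ball.mpr fun i => ((W i).valuation_le_one_iff _).mp (hx1 j i),
    fun j i hi => ?_, fun j => ?_⟩
  · have := hx2 j i
    rwa [if_neg hi, sub_zero] at this
  · have := hx2 j (π j)
    rwa [if_pos rfl] at this

/-- Step B: the adjusted lifts form ONE orthonormal chart family for the semilocal ball. -/
theorem isOrthoFamily_joint (hA : ∀ i (a : K), algebraMap K F a ∈ W i ↔ a ∈ A)
    (ht : ∀ i, t ∈ W i)
    (hy : ∀ i, IsChartOrtho A (W i) t (fun j : {j // π j = i} => y j))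
    {x : J → F} (hx1 : ∀ j, x j ∈ ball W) (hx2 : ∀ j i, i ≠ π j → (W i).valuation (x j) < 1)
    (hx3 : ∀ j, (W (π j)).valuation (x j - y j) < 1) :
    IsOrthoFamily A (ball W) (rad W) (chartFamily t x) := by
  classical
  refine ⟨fun jn => (ball W).mul_mem (pow_mem (mem_ball.mpr ht) _) (hx1 jn.1),
    fun l hl hmem jn₀ => ?_⟩
  set i₀ := π jn₀.1 with hi₀
  have hP := isNormPair_single (hA i₀)
  -- the comparison family
  set y' : J → F := fun j => if π j = i₀ then y j else 0 with hy'
  have hsmall : ∀ j, x j - y' j ∈ vrad (W i₀) := by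
    intro j
    by_cases h : π j = i₀
    · have h1 := hx3 j
      rw [h] at h1
      rw [mem_vrad]
      simpa [hy', h] using h1
    · have h1 := hx2 j i₀ (fun h' => h h'.symm)
      rw [mem_vrad]
      simpa [hy', h] using h1
  let e : {j // π j = i₀} × ℕ → J × ℕ := fun q => (q.1.1, q.2)
  have he : Function.Injective e := by
    rintro ⟨⟨j, hj⟩, n⟩ ⟨⟨j', hj'⟩, n'⟩ h
    have h1 : j = j' := congrArg Prod.fst h
    have h2 : n = n' := congrArg Prod.snd h
    subst h1; subst h2; rfl
  set l' := l.comapDomain e he.injOn with hl'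
  have hl'A : ∀ q, l' q ∈ A := fun q => by
    rw [hl', Finsupp.comapDomain_apply]; exact hl _
  have hkey : Finsupp.linearCombination K (chartFamily t fun j : {j // π j = i₀} => y j) l'
      ∈ vrad (W i₀) := by
    rw [hl', Finsupp.linearCombination_comapDomain]
    have h1 : ∑ q ∈ l.support.preimage e he.injOn,
        l (e q) • chartFamily t (fun j : {j // π j = i₀} => y j) q
        = ∑ jn ∈ l.support, l jn • chartFamily t y' jn := by
      rw [← Finset.sum_preimage e l.support he.injOn (fun jn => l jn • chartFamily t y' jn)]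
      · refine Finset.sum_congr rfl fun q _ => ?_
        have : y' q.1.1 = y q.1.1 := by simp [hy', q.1.2]
        simp only [chartFamily, e, this]
      · intro jn _ hjn
        have hne : π jn.1 ≠ i₀ := fun h => hjn ⟨(⟨jn.1, h⟩, jn.2), rfl⟩
        simp [chartFamily, hy', hne]
    rw [h1]
    have h2 : ∑ jn ∈ l.support, l jn • chartFamily t y' jn
        = Finsupp.linearCombination K (chartFamily t x) l
          - ∑ jn ∈ l.support, l jn • (t ^ jn.2 * (x jn.1 - y' jn.1)) := by
      rw [Finsupp.linearCombination_apply, Finsupp.sum, ← Finset.sum_sub_distrib]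
      refine Finset.sum_congr rfl fun jn _ => ?_
      simp only [chartFamily]
      rw [← smul_sub]
      congr 1
      ring
    rw [h2]
    refine (vrad (W i₀)).sub_mem (mem_rad.mp hmem i₀) ?_
    refine (vrad (W i₀)).sum_mem fun jn _ => ?_
    exact hP.smul_mem_rad' (hl jn) (hP.mul_mem _ (pow_mem (ht i₀) _) _ (hsmall jn.1))
  have := (hy i₀).indep l' hl'A hkey (⟨jn₀.1, rfl⟩, jn₀.2)
  rw [hl', Finsupp.comapDomain_apply] at this
  exact this

end joint

/-! ### From `K`-independence of the chart family to `K(t)`-independence -/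

section chartIndep

variable {J : Type*} {t : F} {b : J → F}

/-- no polynomial relation -/
theorem eq_zero_of_sum_aeval_mul_eq_zero (hli : LinearIndependent K (chartFamily t b))
    (s : Finset J) (P : J → K[X]) (hrel : ∑ j ∈ s, aeval t (P j) * b j = 0) :
    ∀ j ∈ s, P j = 0 := by
  classical
  set N := s.sup fun j => (P j).natDegree with hN
  have hdeg : ∀ j ∈ s, (P j).natDegree < N + 1 := fun j hj =>
    Nat.lt_succ_of_le (Finset.le_sup (f := fun j => (P j).natDegree) hj)
  have hsum : ∑ jn ∈ s ×ˢ Finset.range (N + 1),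
      (P jn.1).coeff jn.2 • chartFamily t b jn = 0 := by
    rw [Finset.sum_product, ← hrel]
    refine Finset.sum_congr rfl fun j hj => ?_
    rw [aeval_eq_sum_range' (hdeg j hj), Finset.sum_mul]
    refine Finset.sum_congr rfl fun n _ => ?_
    simp only [chartFamily]
    rw [smul_mul_assoc]
  have h0 := linearIndependent_iff'.mp hli (s ×ˢ Finset.range (N + 1))
    (fun jn => (P jn.1).coeff jn.2) hsum
  intro j hj
  ext n
  rw [coeff_zero]
  by_cases hn : n < N + 1
  · exact h0 (j, n) (Finset.mem_product.mpr ⟨hj, Finset.mem_range.mpr hn⟩)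
  · exact coeff_eq_zero_of_natDegree_lt (lt_of_lt_of_le (hdeg j hj) (not_lt.mp hn))

/-- If the chart family `t ^ n * b j` is `K`-linearly independent then the `b j` are linearly
independent over `K(t)`. -/
theorem linearIndependent_adjoin_of_chart (hli : LinearIndependent K (chartFamily t b)) :
    LinearIndependent K⟮t⟯ b := by
  classical
  rw [linearIndependent_iff']
  intro s g hsum
  have hex : ∀ j, ∃ r q : K[X], aeval t q ≠ 0 ∧
      ((g j : K⟮t⟯) : F) = aeval t r / aeval t q := by
    intro j
    obtain ⟨r, q, hrq⟩ := (mem_adjoin_simple_iff K ((g j : K⟮t⟯) : F)).mp (g j).2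
    by_cases hq : aeval t q = 0
    · refine ⟨0, 1, by simp, ?_⟩
      rw [hrq, hq, div_zero, map_zero, zero_div]
    · exact ⟨r, q, hq, hrq⟩
  choose r q hq hg using hex
  set D : K[X] := ∏ j ∈ s, q j with hD
  have hDx : aeval t D ≠ 0 := by
    rw [hD, map_prod]
    exact Finset.prod_ne_zero_iff.mpr fun j _ => hq j
  set P : J → K[X] := fun j => r j * ∏ i ∈ s.erase j, q i with hP
  have hPg : ∀ j ∈ s, aeval t (P j) = aeval t D * ((g j : K⟮t⟯) : F) := by
    intro j hj
    rw [hg j, hP, hD, ← Finset.mul_prod_erase s q hj]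
    simp only [map_mul]
    field_simp [hq j]
  have hrel : ∑ j ∈ s, aeval t (P j) * b j = 0 := by
    have h1 : ∑ j ∈ s, aeval t (P j) * b j = aeval t D * ∑ j ∈ s, g j • b j := by
      rw [Finset.mul_sum]
      refine Finset.sum_congr rfl fun j hj => ?_
      rw [hPg j hj, Algebra.smul_def, mul_assoc]
      rfl
    rw [h1, hsum, mul_zero]
  have hzero := eq_zero_of_sum_aeval_mul_eq_zero hli s P hrel
  intro j hj
  have h2 := hPg j hj
  rw [hzero j hj, map_zero] at h2
  have h3 : ((g j : K⟮t⟯) : F) = 0 := (mul_eq_zero.mp h2.symm).resolve_left hDx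
  exact Subtype.ext h3

end chartIndep

/-! ### The fundamental inequality and orthonormal bases -/

section main

variable [Fintype ι] [Nonempty ι] {A : ValuationSubring K} {W : ι → ValuationSubring F} {t : F}
  {J : Type*} {π : J → ι} {y : J → F}

omit [Nonempty ι] in
/-- **The joint orthonormal chart family.** -/
theorem exists_joint_family (hW : Incomparable W)
    (hA : ∀ i (a : K), algebraMap K F a ∈ W i ↔ a ∈ A) (hG : ∀ i, IsGaussChartFor A (W i) t)
    (hy : ∀ i, IsChartOrtho A (W i) t (fun j : {j // π j = i} => y j)) :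
    ∃ x : J → F, IsOrthoFamily A (ball W) (rad W) (chartFamily t x) ∧
      (∀ j i, i ≠ π j → (W i).valuation (x j) < 1) ∧
      ∀ j, (W (π j)).valuation (x j - y j) < 1 := by
  have hymem : ∀ j, y j ∈ W (π j) := by
    intro j
    have := IsOrthoFamily.mem (hy (π j)) (⟨j, rfl⟩, 0)
    simpa [chartFamily] using this
  obtain ⟨x, hx1, hx2, hx3⟩ := exists_adjusted hW hymem
  exact ⟨x, isOrthoFamily_joint hA (fun i => (hG i).mem) hy hx1 hx2 hx3, hx2, hx3⟩

/-- **The fundamental inequality** `∑ f_i ≤ [F : K(t)]`, with `f_i ≥ card (π ⁻¹ i)` witnessed by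
orthonormal chart families. -/
theorem card_le_finrank [Fintype J] [FiniteDimensional K⟮t⟯ F] (hW : Incomparable W)
    (hA : ∀ i (a : K), algebraMap K F a ∈ W i ↔ a ∈ A) (hG : ∀ i, IsGaussChartFor A (W i) t)
    (hy : ∀ i, IsChartOrtho A (W i) t (fun j : {j // π j = i} => y j)) :
    Fintype.card J ≤ finrank K⟮t⟯ F := by
  obtain ⟨x, hx, -, -⟩ := exists_joint_family hW hA hG hy
  exact (linearIndependent_adjoin_of_chart
    (hx.linearIndependent (isNormPair_family hA))).fintype_card_le_finrank

omit [Fintype ι] in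
/-- denominators of the joint chart family: primitive polynomials in `t` are units of the ball -/
theorem hasDenominators_joint [Fintype J]
    (hA : ∀ i (a : K), algebraMap K F a ∈ W i ↔ a ∈ A) (hG : ∀ i, IsGaussChartFor A (W i) t)
    {x : J → F}
    (hspan : ∀ z : F, ∃ s : K[X], s ≠ 0 ∧ ∃ p : J → K[X],
      aeval t s * z = ∑ j, aeval t (p j) * x j) :
    HasDenominators K (ball W) (chartFamily t x) := by
  classical
  let S : Submonoid F :=
    { carrier := {s | IsBallUnit (ball W) s ∧ ∃ p : K[X], aeval t p = s}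
      mul_mem' := by
        rintro a b ⟨ha, p, rfl⟩ ⟨hb, q, rfl⟩
        exact ⟨ha.mul hb, p * q, map_mul _ _ _⟩
      one_mem' := ⟨IsBallUnit.one, 1, map_one _⟩ }
  refine hasDenominators_of_submonoid S (fun s hs => hs.1) ?_ ?_
  · rintro _ ⟨-, p, rfl⟩ z hz
    exact Fermat.Agent.GJ.Ortho.aeval_mul_mem_span_chart t x p hz
  · intro z
    obtain ⟨s0, hs0, p, hp⟩ := hspan z
    obtain ⟨n0, hn0, hmax⟩ := exists_max_coeff_poly A hs0
    refine ⟨aeval t (C (s0.coeff n0)⁻¹ * s0),
      ⟨isBallUnit_ball_iff.mpr fun i => (hG i).valuation_aeval_eq_one (hA i) hn0 hmax, _, rfl⟩,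
      ?_⟩
    rw [map_mul, aeval_C, mul_assoc, hp, ← Algebra.smul_def]
    exact Submodule.smul_mem _ _ (Submodule.sum_mem _ fun j _ =>
      Fermat.Agent.GJ.Ortho.aeval_mul_chart_mem_span t x (p j) j)

/-- **Equality in the fundamental inequality gives orthonormal bases** for the semilocal ring
`ball W = ⋂ W i` with the norm `max_i |x|_i`. -/
theorem hasOrthoBases_of_finrank_le [Fintype J] [FiniteDimensional K⟮t⟯ F]
    (hW : Incomparable W)
    (hA : ∀ i (a : K), algebraMap K F a ∈ W i ↔ a ∈ A) (hG : ∀ i, IsGaussChartFor A (W i) t)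
    (hy : ∀ i, IsChartOrtho A (W i) t (fun j : {j // π j = i} => y j))
    (hdeg : finrank K⟮t⟯ F ≤ Fintype.card J) :
    HasOrthoBases A (ball W) (rad W) := by
  obtain ⟨x, hx, -, -⟩ := exists_joint_family hW hA hG hy
  have hli := linearIndependent_adjoin_of_chart (hx.linearIndependent (isNormPair_family hA))
  have hcard : Fintype.card J = finrank K⟮t⟯ F :=
    le_antisymm hli.fintype_card_le_finrank hdeg
  have hspan := hli.span_eq_top_of_card_eq_finrank' hcard
  exact hasOrthoBases_of_family (isNormPair_family hA) hx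
    (hasDenominators_joint hA hG (Fermat.Agent.GJ.Ortho.hspan_of_span_eq_top hspan))

end main

end Fermat.Agent.GK.MultiVal
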