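/-
GATE-K / K1-ABS part 4 (helper90): from a J1 reduction datum `R : RedData K F k Ft` with a Gauss
chart `t` to the residue-field-free chart predicates of `Family.lean`.

* `IsOrthoFamily.comp` : orthonormal families restrict along injections.
* `RedData.isGaussChartFor`, `RedData.isChartOrtho`.
* `RedData.exists_isChartOrtho` : a chart-orthonormal family of cardinality `[Ft : k(t~)]`.
-/
import Mathlib
import Fermat.Agent.GK.MultiVal.Family
import Fermat.Agent.GJ.Lattice.OrthoDegree

set_option autoImplicit false

open Module Polynomial IntermediateField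

namespace Fermat.Agent.GK.MultiVal

open Fermat.Agent.GJ.Ortho (chartFamily)
open Fermat.Agent.GJ.J1

variable {K F : Type*} [Field K] [Field F] [Algebra K F]

/-- orthonormal families restrict along injections -/
theorem IsOrthoFamily.comp {A : ValuationSubring K} {B : Subring F} {I : AddSubgroup F}
    {J J' : Type*} {g : J → F} (hg : IsOrthoFamily A B I g) {e : J' → J}
    (he : Function.Injective e) : IsOrthoFamily A B I (g ∘ e) := by
  classical
  refine ⟨fun j' => hg.mem (e j'), fun c hc hmem j' => ?_⟩
  have h1 : ∀ j, (c.mapDomain e) j ∈ A := by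
    intro j
    by_cases hj : j ∈ Set.range e
    · obtain ⟨j'', rfl⟩ := hj
      rw [Finsupp.mapDomain_apply he]
      exact hc j''
    · rw [Finsupp.mapDomain_of_notMem_range c j hj]
      exact A.zero_mem
  have h2 : Finsupp.linearCombination K g (c.mapDomain e) ∈ I := by
    rw [Finsupp.linearCombination_mapDomain]
    exact hmem
  have := hg.indep _ h1 h2 (e j')
  rwa [Finsupp.mapDomain_apply he] at this

/-- the single-valuation orthonormal families of `GJ/Lattice/OrthoBall` are orthonormal for the
norm pair `(Rw, vrad Rw)` -/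
theorem isOrthoFamily_of_single {A : ValuationSubring K} {Rw : ValuationSubring F} {J : Type*}
    {g : J → F} (h : Fermat.Agent.GJ.Ortho.IsOrthoFamily A Rw g) :
    IsOrthoFamily A Rw.toSubring (vrad Rw) g :=
  ⟨h.mem, fun c hc hmem => h.indep c hc ((ValuationSubring.mem_nonunits_iff _).mpr hmem)⟩

variable {k Ft : Type*} [Field k] [Field Ft] [Algebra k Ft]

theorem _root_.Fermat.Agent.GJ.J1.RedData.algebraMap_mem_iff' (R : RedData K F k Ft) (a : K) :
    algebraMap K F a ∈ R.Rw ↔ a ∈ R.A := (R.mem_A_iff a).symm

/-- lifts of a `k(t~)`-linearly independent family form an orthonormal chart family -/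
theorem _root_.Fermat.Agent.GJ.J1.RedData.isChartOrtho (R : RedData K F k Ft) {t : F}
    (ht : R.IsGaussChart t) {M : Type*} (b : M → R.Rw)
    (hb : LinearIndependent k⟮R.red ⟨t, ht.1⟩⟯ fun m => R.red (b m)) :
    IsChartOrtho R.A R.Rw t (fun m => (b m : F)) :=
  isOrthoFamily_of_single (Fermat.Agent.GJ.Ortho.isOrthoFamily_chart R.orthoRedSystem ⟨t, ht.1⟩ b
    (Fermat.Agent.GJ.Ortho.linearIndependent_chart_of_transcendental ⟨t, ht.1⟩ b ht.2
      (linearIndependent_adjoin_of_intermediateField _ _ hb)))

/-- a Gauss chart in the sense of J1 (transcendental reduction) is a Gauss chart in the sense of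
`Family.lean` (orthonormal powers) -/
theorem _root_.Fermat.Agent.GJ.J1.RedData.isGaussChartFor (R : RedData K F k Ft) {t : F}
    (ht : R.IsGaussChart t) : IsGaussChartFor R.A R.Rw t := by
  have h1 : LinearIndependent k⟮R.red ⟨t, ht.1⟩⟯ fun _ : Unit => R.red (1 : R.Rw) := by
    rw [map_one]
    exact LinearIndependent.of_subsingleton () one_ne_zero
  have h2 := R.isChartOrtho ht (fun _ : Unit => (1 : R.Rw)) h1
  have h3 := IsOrthoFamily.comp h2 (e := fun n : ℕ => ((), n)) (fun a b h => by
    simpa using congrArg Prod.snd h)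
  have h4 : (chartFamily t (fun _ : Unit => (((1 : R.Rw) : R.Rw) : F)) ∘ fun n : ℕ => ((), n))
      = fun n : ℕ => t ^ n := by
    funext n
    simp [chartFamily]
  rw [h4] at h3
  exact h3

/-- **a chart-orthonormal family of cardinality the residue degree** -/
theorem _root_.Fermat.Agent.GJ.J1.RedData.exists_isChartOrtho (R : RedData K F k Ft) {t : F}
    (ht : R.IsGaussChart t) [FiniteDimensional k⟮R.red ⟨t, ht.1⟩⟯ Ft] :
    ∃ y : Fin (finrank k⟮R.red ⟨t, ht.1⟩⟯ Ft) → F, IsChartOrtho R.A R.Rw t y := by
  let β := Module.finBasis k⟮R.red ⟨t, ht.1⟩⟯ Ft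
  choose b hb using fun i => R.red_surjective (β i)
  have hbli : LinearIndependent k⟮R.red ⟨t, ht.1⟩⟯ fun i => R.red (b i) := by
    simpa only [hb] using β.linearIndependent
  exact ⟨fun i => (b i : F), R.isChartOrtho ht b hbli⟩

end Fermat.Agent.GK.MultiVal
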