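/-
GATE-K / K1-ABS part 5 (helper90): TWO valuation subrings `W1 ≠ W2` of `F` over one Gauss chart.

The case `ι = Fin 2`, `W = ![W1, W2]` of `Family.lean`, with the index bookkeeping done once:
`pair_card_le_finrank` (fundamental inequality `f1 + f2 ≤ [F : K(t)]`) and `pair_hasOrthoBases`
(`[F : K(t)] ≤ f1 + f2` gives orthonormal bases for `W1 ⊓ W2`).
-/
import Mathlib
import Fermat.Agent.GK.MultiVal.RedChart

set_option autoImplicit false

open Module Polynomial IntermediateField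

namespace Fermat.Agent.GK.MultiVal

open Fermat.Agent.GJ.Ortho (chartFamily)

variable {K F : Type*} [Field K] [Field F] [Algebra K F]

section pair

variable {A : ValuationSubring K} {W1 W2 : ValuationSubring F} {t : F}

theorem ball_pair : ball ![W1, W2] = W1.toSubring ⊓ W2.toSubring := by
  ext x
  rw [mem_ball, Fin.forall_fin_two, Subring.mem_inf]
  exact Iff.rfl

theorem rad_pair : rad ![W1, W2] = vrad W1 ⊓ vrad W2 := by
  ext x
  rw [mem_rad, Fin.forall_fin_two, AddSubgroup.mem_inf]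
  exact Iff.rfl

theorem pair_forall {P : ValuationSubring F → Prop} (h1 : P W1) (h2 : P W2) :
    ∀ i : Fin 2, P (![W1, W2] i) := by
  rw [Fin.forall_fin_two]
  exact ⟨h1, h2⟩

theorem injective_pair (hne : W1 ≠ W2) : Function.Injective ![W1, W2] := by
  intro i j h
  fin_cases i <;> fin_cases j
  · rfl
  · exact absurd h hne
  · exact absurd h.symm hne
  · rfl

theorem incomparable_pair [Algebra.IsAlgebraic K⟮t⟯ F] (hne : W1 ≠ W2)
    (hA1 : ∀ a : K, algebraMap K F a ∈ W1 ↔ a ∈ A) (hA2 : ∀ a : K, algebraMap K F a ∈ W2 ↔ a ∈ A)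
    (hG1 : IsGaussChartFor A W1 t) (hG2 : IsGaussChartFor A W2 t) :
    Incomparable ![W1, W2] :=
  incomparable_of_injective (injective_pair hne)
    (pair_forall (P := fun W => ∀ a : K, algebraMap K F a ∈ W ↔ a ∈ A) hA1 hA2)
    (pair_forall (P := fun W => IsGaussChartFor A W t) hG1 hG2)

variable {M1 M2 : Type*} {y1 : M1 → F} {y2 : M2 → F}

/-- which component -/
def pairIdx (M1 M2 : Type*) : M1 ⊕ M2 → Fin 2 := Sum.elim (fun _ => 0) (fun _ => 1)

/-- the fibre of `pairIdx` over `0` is `M1` -/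
def fibreZero (M1 M2 : Type*) : {j : M1 ⊕ M2 // pairIdx M1 M2 j = 0} → M1
  | ⟨Sum.inl m, _⟩ => m
  | ⟨Sum.inr _, h⟩ => absurd h (by simp [pairIdx])

/-- the fibre of `pairIdx` over `1` is `M2` -/
def fibreOne (M1 M2 : Type*) : {j : M1 ⊕ M2 // pairIdx M1 M2 j = 1} → M2
  | ⟨Sum.inr m, _⟩ => m
  | ⟨Sum.inl _, h⟩ => absurd h (by simp [pairIdx])

theorem fibreZero_injective : Function.Injective (fibreZero M1 M2) := by
  rintro ⟨a | a, ha⟩ ⟨b | b, hb⟩ h
  · simp only [fibreZero] at h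
    subst h; rfl
  · exact absurd hb (by simp [pairIdx])
  · exact absurd ha (by simp [pairIdx])
  · exact absurd ha (by simp [pairIdx])

theorem fibreOne_injective : Function.Injective (fibreOne M1 M2) := by
  rintro ⟨a | a, ha⟩ ⟨b | b, hb⟩ h
  · exact absurd ha (by simp [pairIdx])
  · exact absurd ha (by simp [pairIdx])
  · exact absurd hb (by simp [pairIdx])
  · simp only [fibreOne] at h
    subst h; rfl

omit [Field F] in
theorem elim_fibreZero (j : {j : M1 ⊕ M2 // pairIdx M1 M2 j = 0}) :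
    Sum.elim y1 y2 j = y1 (fibreZero M1 M2 j) := by
  obtain ⟨a | a, ha⟩ := j
  · rfl
  · exact absurd ha (by simp [pairIdx])

omit [Field F] in
theorem elim_fibreOne (j : {j : M1 ⊕ M2 // pairIdx M1 M2 j = 1}) :
    Sum.elim y1 y2 j = y2 (fibreOne M1 M2 j) := by
  obtain ⟨a | a, ha⟩ := j
  · exact absurd ha (by simp [pairIdx])
  · rfl

theorem pair_isChartOrtho (hy1 : IsChartOrtho A W1 t y1) (hy2 : IsChartOrtho A W2 t y2) :
    ∀ i : Fin 2, IsChartOrtho A (![W1, W2] i) t
      (fun j : {j // pairIdx M1 M2 j = i} => Sum.elim y1 y2 j) := by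
  rw [Fin.forall_fin_two]
  constructor
  · have h := IsOrthoFamily.comp hy1
      (e := fun q : {j : M1 ⊕ M2 // pairIdx M1 M2 j = 0} × ℕ => (fibreZero M1 M2 q.1, q.2))
      (fun a b h => Prod.ext (fibreZero_injective (congrArg (fun z : M1 × ℕ => z.1) h))
        (congrArg (fun z : M1 × ℕ => z.2) h))
    have h' : (chartFamily t y1 ∘
        fun q : {j : M1 ⊕ M2 // pairIdx M1 M2 j = 0} × ℕ => (fibreZero M1 M2 q.1, q.2))
        = chartFamily t (fun j : {j // pairIdx M1 M2 j = 0} => Sum.elim y1 y2 j) := by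
      funext q
      simp only [Function.comp, chartFamily, elim_fibreZero]
    rw [h'] at h
    exact h
  · have h := IsOrthoFamily.comp hy2
      (e := fun q : {j : M1 ⊕ M2 // pairIdx M1 M2 j = 1} × ℕ => (fibreOne M1 M2 q.1, q.2))
      (fun a b h => Prod.ext (fibreOne_injective (congrArg (fun z : M2 × ℕ => z.1) h))
        (congrArg (fun z : M2 × ℕ => z.2) h))
    have h' : (chartFamily t y2 ∘
        fun q : {j : M1 ⊕ M2 // pairIdx M1 M2 j = 1} × ℕ => (fibreOne M1 M2 q.1, q.2))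
        = chartFamily t (fun j : {j // pairIdx M1 M2 j = 1} => Sum.elim y1 y2 j) := by
      funext q
      simp only [Function.comp, chartFamily, elim_fibreOne]
    rw [h'] at h
    exact h

/-- **Fundamental inequality for two valuation subrings.** -/
theorem pair_card_le_finrank [Fintype M1] [Fintype M2] [FiniteDimensional K⟮t⟯ F]
    (hne : W1 ≠ W2)
    (hA1 : ∀ a : K, algebraMap K F a ∈ W1 ↔ a ∈ A) (hA2 : ∀ a : K, algebraMap K F a ∈ W2 ↔ a ∈ A)
    (hG1 : IsGaussChartFor A W1 t) (hG2 : IsGaussChartFor A W2 t)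
    (hy1 : IsChartOrtho A W1 t y1) (hy2 : IsChartOrtho A W2 t y2) :
    Fintype.card M1 + Fintype.card M2 ≤ finrank K⟮t⟯ F := by
  have h := card_le_finrank (J := M1 ⊕ M2) (π := pairIdx M1 M2) (y := Sum.elim y1 y2)
    (incomparable_pair hne hA1 hA2 hG1 hG2)
    (pair_forall (P := fun W => ∀ a : K, algebraMap K F a ∈ W ↔ a ∈ A) hA1 hA2)
    (pair_forall (P := fun W => IsGaussChartFor A W t) hG1 hG2)
    (pair_isChartOrtho hy1 hy2)
  rwa [Fintype.card_sum] at h

/-- **Orthonormal bases for `W1 ⊓ W2`** when the residue degrees add up to the degree. -/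
theorem pair_hasOrthoBases [Fintype M1] [Fintype M2] [FiniteDimensional K⟮t⟯ F]
    (hne : W1 ≠ W2)
    (hA1 : ∀ a : K, algebraMap K F a ∈ W1 ↔ a ∈ A) (hA2 : ∀ a : K, algebraMap K F a ∈ W2 ↔ a ∈ A)
    (hG1 : IsGaussChartFor A W1 t) (hG2 : IsGaussChartFor A W2 t)
    (hy1 : IsChartOrtho A W1 t y1) (hy2 : IsChartOrtho A W2 t y2)
    (hdeg : finrank K⟮t⟯ F ≤ Fintype.card M1 + Fintype.card M2) :
    HasOrthoBases A (W1.toSubring ⊓ W2.toSubring) (vrad W1 ⊓ vrad W2) := by
  have h := hasOrthoBases_of_finrank_le (J := M1 ⊕ M2) (π := pairIdx M1 M2)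
    (y := Sum.elim y1 y2)
    (incomparable_pair hne hA1 hA2 hG1 hG2)
    (pair_forall (P := fun W => ∀ a : K, algebraMap K F a ∈ W ↔ a ∈ A) hA1 hA2)
    (pair_forall (P := fun W => IsGaussChartFor A W t) hG1 hG2)
    (pair_isChartOrtho hy1 hy2) (by rwa [Fintype.card_sum])
  rwa [ball_pair, rad_pair] at h

theorem pair_isNormPair
    (hA1 : ∀ a : K, algebraMap K F a ∈ W1 ↔ a ∈ A) (hA2 : ∀ a : K, algebraMap K F a ∈ W2 ↔ a ∈ A) :
    IsNormPair A (W1.toSubring ⊓ W2.toSubring) (vrad W1 ⊓ vrad W2) := by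
  have h := isNormPair_family (W := ![W1, W2])
    (pair_forall (P := fun W => ∀ a : K, algebraMap K F a ∈ W ↔ a ∈ A) hA1 hA2)
  rwa [ball_pair, rad_pair] at h

end pair

end Fermat.Agent.GK.MultiVal
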