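/-
GATE-K / K1-ABS part 6 (helper90): two J1 reduction data `R1 R2` on the same field `F` over the
same base `(A, res)` (`RedCompat`), with a common Gauss chart `t`.

* `ball2`, `rad2`, `red2 : ball2 →+* Ft1 × Ft2`, `isNormPair2`, `isRedSystem2`.
* `sum_finrank_le` : the fundamental inequality `f1 + f2 ≤ [F : K(t)]` (`R1.Rw ≠ R2.Rw`).
* `hasOrthoBases2` : `[F : K(t)] ≤ f1 + f2` gives orthonormal bases for `Rw1 ⊓ Rw2`; hence
  `finrank_redBall2`, `exists_lift2`, `redBall2_eq_of_le` (rank preservation of the lattice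
  `V ∩ Rw1 ∩ Rw2` under the pair reduction, and lifting).
-/
import Mathlib
import Fermat.Agent.GK.MultiVal.Pair

set_option autoImplicit false

open Module Polynomial IntermediateField

namespace Fermat.Agent.GK.MultiVal

open Fermat.Agent.GJ.J1

variable {K F k Ft1 Ft2 : Type*} [Field K] [Field F] [Algebra K F] [Field k]
  [Field Ft1] [Algebra k Ft1] [Field Ft2] [Algebra k Ft2]

/-- Two reduction data over the same valuation ring of the base and the same residue map. -/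
structure RedCompat (R1 : RedData K F k Ft1) (R2 : RedData K F k Ft2) : Prop where
  A_eq : R1.A = R2.A
  res_eq : ∀ (a : K) (h1 : a ∈ R1.A) (h2 : a ∈ R2.A), R1.res ⟨a, h1⟩ = R2.res ⟨a, h2⟩

variable (R1 : RedData K F k Ft1) (R2 : RedData K F k Ft2)

/-- the closed unit ball of `max(|x|₁, |x|₂)` -/
def ball2 : Subring F := R1.Rw.toSubring ⊓ R2.Rw.toSubring

/-- the open unit ball of `max(|x|₁, |x|₂)` -/
def rad2 : AddSubgroup F := vrad R1.Rw ⊓ vrad R2.Rw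

variable {R1 R2}

theorem mem_ball2 {x : F} : x ∈ ball2 R1 R2 ↔ x ∈ R1.Rw ∧ x ∈ R2.Rw := by
  rw [ball2, Subring.mem_inf]
  exact Iff.rfl

theorem mem_rad2 {x : F} :
    x ∈ rad2 R1 R2 ↔ R1.Rw.valuation x < 1 ∧ R2.Rw.valuation x < 1 := by
  rw [rad2, AddSubgroup.mem_inf]
  exact Iff.rfl

variable (R1 R2)

/-- the pair reduction `x ↦ (red₁ x, red₂ x)` on `Rw1 ⊓ Rw2` -/
def red2 : ball2 R1 R2 →+* Ft1 × Ft2 where
  toFun x := (R1.red ⟨x, (mem_ball2.mp x.2).1⟩, R2.red ⟨x, (mem_ball2.mp x.2).2⟩)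
  map_one' := Prod.ext (map_one R1.red) (map_one R2.red)
  map_mul' x y := Prod.ext (map_mul R1.red ⟨x, (mem_ball2.mp x.2).1⟩ ⟨y, (mem_ball2.mp y.2).1⟩)
    (map_mul R2.red ⟨x, (mem_ball2.mp x.2).2⟩ ⟨y, (mem_ball2.mp y.2).2⟩)
  map_zero' := Prod.ext (map_zero R1.red) (map_zero R2.red)
  map_add' x y := Prod.ext (map_add R1.red ⟨x, (mem_ball2.mp x.2).1⟩ ⟨y, (mem_ball2.mp y.2).1⟩)
    (map_add R2.red ⟨x, (mem_ball2.mp x.2).2⟩ ⟨y, (mem_ball2.mp y.2).2⟩)

variable {R1 R2}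

theorem red2_apply (x : ball2 R1 R2) :
    red2 R1 R2 x = (R1.red ⟨x, (mem_ball2.mp x.2).1⟩, R2.red ⟨x, (mem_ball2.mp x.2).2⟩) := rfl

theorem red2_mk {x : F} (h1 : x ∈ R1.Rw) (h2 : x ∈ R2.Rw) :
    red2 R1 R2 ⟨x, mem_ball2.mpr ⟨h1, h2⟩⟩ = (R1.red ⟨x, h1⟩, R2.red ⟨x, h2⟩) := rfl

section compat

variable (hc : RedCompat R1 R2)
include hc

theorem RedCompat.mem_iff₂ (a : K) : algebraMap K F a ∈ R2.Rw ↔ a ∈ R1.A := by
  rw [hc.A_eq]
  exact (R2.mem_A_iff a).symm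

theorem isNormPair2 : IsNormPair R1.A (ball2 R1 R2) (rad2 R1 R2) :=
  pair_isNormPair R1.algebraMap_mem_iff' hc.mem_iff₂

theorem isRedSystem2 :
    IsRedSystem R1.A (ball2 R1 R2) (rad2 R1 R2) R1.res (red2 R1 R2).toAddMonoidHom
      (isNormPair2 hc) where
  res_surj := R1.res_surjective
  res_ker := R1.orthoRedSystem.res_ker
  red_ker := fun x => by
    show red2 R1 R2 x = 0 ↔ _
    rw [red2_apply, Prod.mk_eq_zero, mem_rad2, R1.orthoRedSystem.red_ker,
      R2.orthoRedSystem.red_ker, ValuationSubring.mem_nonunits_iff,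
      ValuationSubring.mem_nonunits_iff]
  red_smul := fun a x => by
    have hx := mem_ball2.mp x.2
    have ha2 : (a : K) ∈ R2.A := hc.A_eq ▸ a.2
    show red2 R1 R2 ⟨(a : K) • (x : F), _⟩ = R1.res a • red2 R1 R2 x
    rw [red2_apply, red2_apply, Prod.smul_mk]
    refine Prod.ext ?_ ?_
    · show R1.red ⟨(a : K) • (x : F), _⟩ = R1.res a • R1.red ⟨x, hx.1⟩
      have h1 : (⟨(a : K) • (x : F), (mem_ball2.mp ((isNormPair2 hc).smul_mem_ball a.2 x.2)).1⟩ :
          R1.Rw) = ⟨algebraMap K F (a : K), (R1.mem_A_iff a).1 a.2⟩ * ⟨x, hx.1⟩ := by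
        apply Subtype.ext
        show (a : K) • (x : F) = algebraMap K F (a : K) * (x : F)
        rw [Algebra.smul_def]
      rw [h1, map_mul, R1.red_algebraMap a, Algebra.smul_def]
    · show R2.red ⟨(a : K) • (x : F), _⟩ = R1.res a • R2.red ⟨x, hx.2⟩
      have h1 : (⟨(a : K) • (x : F), (mem_ball2.mp ((isNormPair2 hc).smul_mem_ball a.2 x.2)).2⟩ :
          R2.Rw) = ⟨algebraMap K F (a : K), (R2.mem_A_iff a).1 ha2⟩ * ⟨x, hx.2⟩ := by
        apply Subtype.ext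
        show (a : K) • (x : F) = algebraMap K F (a : K) * (x : F)
        rw [Algebra.smul_def]
      rw [h1, map_mul, R2.red_algebraMap ⟨(a : K), ha2⟩, Algebra.smul_def,
        ← hc.res_eq (a : K) a.2 ha2]

/-- the Gauss chart property of the second datum, over the first base ring -/
theorem RedCompat.isGaussChartFor₂ {t : F} (ht2 : R2.IsGaussChart t) :
    IsGaussChartFor R1.A R2.Rw t := by
  have h := R2.isGaussChartFor ht2
  rwa [← hc.A_eq] at h

/-- **The fundamental inequality** `f1 + f2 ≤ [F : K(t)]` for two distinct valuation rings with a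
common Gauss chart. -/
theorem sum_finrank_le (hne : R1.Rw ≠ R2.Rw) {t : F} (ht1 : R1.IsGaussChart t)
    (ht2 : R2.IsGaussChart t) [FiniteDimensional K⟮t⟯ F] :
    finrank k⟮R1.red ⟨t, ht1.1⟩⟯ Ft1 + finrank k⟮R2.red ⟨t, ht2.1⟩⟯ Ft2 ≤ finrank K⟮t⟯ F := by
  have hf1 := (Fermat.Agent.GJ.S37.ResDeg.finrank_residue_le R1.A R1.Rw
    (fun a ha => (R1.mem_A_iff a).1 ha) R1.red R1.res R1.red_algebraMap R1.red_surjective
    ⟨t, ht1.1⟩ ht1.2).1
  have hf2 := (Fermat.Agent.GJ.S37.ResDeg.finrank_residue_le R2.A R2.Rw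
    (fun a ha => (R2.mem_A_iff a).1 ha) R2.red R2.res R2.red_algebraMap R2.red_surjective
    ⟨t, ht2.1⟩ ht2.2).1
  obtain ⟨y1, hy1⟩ := R1.exists_isChartOrtho ht1
  obtain ⟨y2, hy2⟩ := R2.exists_isChartOrtho ht2
  have hy2' : IsChartOrtho R1.A R2.Rw t y2 := by
    have h := hy2
    rwa [← hc.A_eq] at h
  have h := pair_card_le_finrank hne R1.algebraMap_mem_iff' hc.mem_iff₂
    (R1.isGaussChartFor ht1) (hc.isGaussChartFor₂ ht2) hy1 hy2'
  simpa using h

/-- **Orthonormal bases for `Rw1 ⊓ Rw2`** when `[F : K(t)] ≤ f1 + f2`. -/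
theorem hasOrthoBases2 (hne : R1.Rw ≠ R2.Rw) {t : F} (ht1 : R1.IsGaussChart t)
    (ht2 : R2.IsGaussChart t) [FiniteDimensional K⟮t⟯ F]
    (hdeg : finrank K⟮t⟯ F ≤
      finrank k⟮R1.red ⟨t, ht1.1⟩⟯ Ft1 + finrank k⟮R2.red ⟨t, ht2.1⟩⟯ Ft2) :
    HasOrthoBases R1.A (ball2 R1 R2) (rad2 R1 R2) := by
  have hf1 := (Fermat.Agent.GJ.S37.ResDeg.finrank_residue_le R1.A R1.Rw
    (fun a ha => (R1.mem_A_iff a).1 ha) R1.red R1.res R1.red_algebraMap R1.red_surjective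
    ⟨t, ht1.1⟩ ht1.2).1
  have hf2 := (Fermat.Agent.GJ.S37.ResDeg.finrank_residue_le R2.A R2.Rw
    (fun a ha => (R2.mem_A_iff a).1 ha) R2.red R2.res R2.red_algebraMap R2.red_surjective
    ⟨t, ht2.1⟩ ht2.2).1
  obtain ⟨y1, hy1⟩ := R1.exists_isChartOrtho ht1
  obtain ⟨y2, hy2⟩ := R2.exists_isChartOrtho ht2
  have hy2' : IsChartOrtho R1.A R2.Rw t y2 := by
    have h := hy2
    rwa [← hc.A_eq] at h
  exact pair_hasOrthoBases hne R1.algebraMap_mem_iff' hc.mem_iff₂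
    (R1.isGaussChartFor ht1) (hc.isGaussChartFor₂ ht2) hy1 hy2' (by simpa using hdeg)

end compat

/-! ### Consequences of orthonormal bases: rank preservation and lifting -/

section consequences

variable (hc : RedCompat R1 R2) (ho : HasOrthoBases R1.A (ball2 R1 R2) (rad2 R1 R2))
include hc ho

/-- **Rank preservation**: the pair reduction of the lattice `V ∩ Rw1 ∩ Rw2` has `k`-dimension
`dim_K V`. -/
theorem finrank_redBall2 (V : Submodule K F) [FiniteDimensional K V] :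
    finrank k (redBall (k := k) (ball2 R1 R2) (red2 R1 R2).toAddMonoidHom V) = finrank K V :=
  ho.finrank_redBall (isRedSystem2 hc) V

theorem finiteDimensional_redBall2 (V : Submodule K F) [FiniteDimensional K V] :
    FiniteDimensional k (redBall (k := k) (ball2 R1 R2) (red2 R1 R2).toAddMonoidHom V) :=
  ho.finiteDimensional_redBall (isRedSystem2 hc) V

/-- **Lifting**: if the pair reductions of `V ∩ Rw1 ∩ Rw2` lie in `Wt` and `dim Wt ≤ dim V`, every
element of `Wt` is the pair reduction of an element of `V ∩ Rw1 ∩ Rw2`. -/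
theorem exists_lift2 (V : Submodule K F) [FiniteDimensional K V]
    (Wt : Submodule k (Ft1 × Ft2)) [FiniteDimensional k Wt]
    (hle : ∀ x (h1 : x ∈ R1.Rw) (h2 : x ∈ R2.Rw), x ∈ V → (R1.red ⟨x, h1⟩, R2.red ⟨x, h2⟩) ∈ Wt)
    (hdim : finrank k Wt ≤ finrank K V) {y : Ft1 × Ft2} (hy : y ∈ Wt) :
    ∃ x ∈ V, ∃ (h1 : x ∈ R1.Rw) (h2 : x ∈ R2.Rw), (R1.red ⟨x, h1⟩, R2.red ⟨x, h2⟩) = y := by
  have hle' : redBall (k := k) (ball2 R1 R2) (red2 R1 R2).toAddMonoidHom V ≤ Wt := by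
    rw [redBall, Submodule.span_le]
    rintro _ ⟨x, hxV, rfl⟩
    exact hle x (mem_ball2.mp x.2).1 (mem_ball2.mp x.2).2 hxV
  obtain ⟨x, hxV, hxy⟩ := ho.exists_lift (isRedSystem2 hc) V Wt hle' hdim hy
  exact ⟨x, hxV, (mem_ball2.mp x.2).1, (mem_ball2.mp x.2).2, hxy⟩

end consequences

end Fermat.Agent.GK.MultiVal
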