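/-
GATE-K / K1-ABS part 10 (helper90): the RELATIVE fundamental inequality, without charts.

`F / K` a FINITE extension, `A` a valuation subring of `K` (in the applications `K` is itself a
function field with a Gauss valuation, e.g. `K = α(F_{N'}) ⊂ F = F_N`), `W : ι → ValuationSubring F`
finitely many incomparable extensions of `A`.  "`f_i ≥ card (π ⁻¹ i)`" is witnessed by families
`y j` (`π j = i`) orthonormal for `W i` (= lifts of `κ'`-independent elements of the residue field).

* `isOrthoFamily_joint_gen`, `exists_joint_family_gen` : ONE orthonormal family for the semilocal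
  ball `⋂ W i`.
* `card_le_finrank_gen` : `∑ f_i ≤ [F : K]`.
* `exists_basis_of_finrank_le` : if `[F : K] ≤ ∑ f_i` there is a `K`-basis `b` of `F` with
  `⋂ W i = ⊕ A b_j`, `rad = ⊕ m_A b_j`, `b_j ≡ y_j` at `W (π j)` and `b_j ≡ 0` at the other `W i`.
* `IsRedSystem.isOrthoFamily_of_linearIndependent`, `IsOrthoFamily.linearIndependent_red`.
* `exists_basis2` : two reduction data `R1 R2` over `(A, res)` on a finite `F / K` with
  `[F : K] ≤ [Ft1 : k] + [Ft2 : k]`: a basis `b` of `F / K` with `Rw1 ⊓ Rw2 = ⊕ A b_j` whose pair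
  reductions form a `k`-basis of `Ft1 × Ft2` (input of the norm-reduction formula).
-/
import Mathlib
import Fermat.Agent.GK.MultiVal.TwoRedData

set_option autoImplicit false

open Module

namespace Fermat.Agent.GK.MultiVal

variable {K F : Type*} [Field K] [Field F] [Algebra K F]

/-! ### Orthonormal families and reductions (any norm pair) -/

section red

variable {A : ValuationSubring K} {B : Subring F} {I : AddSubgroup F}
  {k Λ : Type*} [Field k] [AddCommGroup Λ] [Module k Λ] {res : A →+* k} {red : B →+ Λ}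
  {h : IsNormPair A B I} {J : Type*}

/-- elements of the ball with linearly independent reductions are orthonormal -/
theorem IsRedSystem.isOrthoFamily_of_linearIndependent (hR : IsRedSystem A B I res red h)
    (g : J → B) (hli : LinearIndependent k fun j => red (g j)) :
    IsOrthoFamily A B I fun j => ((g j : B) : F) := by
  classical
  refine ⟨fun j => (g j).2, fun c hc hmem j => ?_⟩
  by_cases hj : j ∈ c.support
  swap
  · rw [Finsupp.notMem_support_iff.mp hj, ValuationSubring.mem_nonunits_iff, map_zero]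
    exact zero_lt_one
  rw [Finsupp.linearCombination_apply, Finsupp.sum] at hmem
  set z : B := ∑ i ∈ c.support,
    (⟨(c i : K) • ((g i : B) : F), h.smul_mem_ball (hc i) (g i).2⟩ : B) with hz
  have hzF : (z : F) = ∑ i ∈ c.support, c i • ((g i : B) : F) := by
    rw [hz, AddSubmonoidClass.coe_finsetSum]
  have hz0 : red z = 0 := (hR.red_ker z).mpr (by rw [hzF]; exact hmem)
  have hsum : ∑ i ∈ c.support, res ⟨c i, hc i⟩ • red (g i) = 0 := by
    rw [← hz0, hz, map_sum]
    exact Finset.sum_congr rfl fun i _ => (hR.red_smul ⟨c i, hc i⟩ (g i)).symm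
  have h0 := linearIndependent_iff'.mp hli c.support (fun i => res ⟨c i, hc i⟩) hsum j hj
  exact (hR.res_ker ⟨c j, hc j⟩).mp h0

/-- the reductions of an orthonormal family are linearly independent -/
theorem IsOrthoFamily.linearIndependent_red (hR : IsRedSystem A B I res red h) {g : J → F}
    (hg : IsOrthoFamily A B I g) : LinearIndependent k fun j => red ⟨g j, hg.mem j⟩ := by
  classical
  rw [linearIndependent_iff']
  intro s γ hγ j hj
  choose c hc using fun i => hR.res_surj (γ i)
  set l : J →₀ K := ∑ i ∈ s, Finsupp.single i ((c i : A) : K) with hl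
  have hlapp : ∀ i, l i = if i ∈ s then ((c i : A) : K) else 0 := by
    intro i
    rw [hl, Finsupp.finsetSum_apply]
    simp only [Finsupp.single_apply]
    rw [Finset.sum_ite_eq']
  have hlA : ∀ i, l i ∈ A := by
    intro i
    rw [hlapp]
    split_ifs
    · exact (c i).2
    · exact A.zero_mem
  have hlc : Finsupp.linearCombination K g l = ∑ i ∈ s, ((c i : A) : K) • g i := by
    rw [hl, map_sum]
    exact Finset.sum_congr rfl fun i _ => Finsupp.linearCombination_single _ _ _
  set z : B := ∑ i ∈ s, (⟨((c i : A) : K) • g i, h.smul_mem_ball (c i).2 (hg.mem i)⟩ : B) with hz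
  have hzF : (z : F) = ∑ i ∈ s, ((c i : A) : K) • g i := by
    rw [hz, AddSubmonoidClass.coe_finsetSum]
  have hz0 : red z = 0 := by
    rw [hz, map_sum, ← hγ]
    refine Finset.sum_congr rfl fun i _ => ?_
    rw [← hc i]
    exact hR.red_smul (c i) ⟨g i, hg.mem i⟩
  have hmem : Finsupp.linearCombination K g l ∈ I := by
    rw [hlc, ← hzF]
    exact (hR.red_ker z).mp hz0
  have h1 := hg.indep l hlA hmem j
  rw [hlapp, if_pos hj] at h1
  rw [← hc j]
  exact (hR.res_ker (c j)).mpr h1

end red

/-! ### The joint family, without charts -/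

section family

variable {ι : Type*} {A : ValuationSubring K} {W : ι → ValuationSubring F}
  {J : Type*} {π : J → ι} {y : J → F}

/-- the adjusted lifts form ONE orthonormal family for the semilocal ball -/
theorem isOrthoFamily_joint_gen (hA : ∀ i (a : K), algebraMap K F a ∈ W i ↔ a ∈ A)
    (hy : ∀ i, IsOrthoFamily A (W i).toSubring (vrad (W i)) (fun j : {j // π j = i} => y j))
    {x : J → F} (hx1 : ∀ j, x j ∈ ball W) (hx2 : ∀ j i, i ≠ π j → (W i).valuation (x j) < 1)
    (hx3 : ∀ j, (W (π j)).valuation (x j - y j) < 1) :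
    IsOrthoFamily A (ball W) (rad W) x := by
  classical
  refine ⟨hx1, fun l hl hmem j₀ => ?_⟩
  set i₀ := π j₀ with hi₀
  have hP := isNormPair_single (hA i₀)
  set y' : J → F := fun j => if π j = i₀ then y j else 0 with hy'
  have hsmall : ∀ j, x j - y' j ∈ vrad (W i₀) := by
    intro j
    by_cases h : π j = i₀
    · have h1 := hx3 j
      rw [h] at h1
      rw [mem_vrad]
      simpa [hy', h] using h1
    · have h1 := hx2 j i₀ (fun h' => h h'.symm)
      rw [mem_vrad]
      simpa [hy', h] using h1
  let e : {j // π j = i₀} → J := Subtype.val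
  have he : Function.Injective e := Subtype.val_injective
  set l' := l.comapDomain e he.injOn with hl'
  have hl'A : ∀ q, l' q ∈ A := fun q => by
    rw [hl', Finsupp.comapDomain_apply]; exact hl _
  have hkey : Finsupp.linearCombination K (fun j : {j // π j = i₀} => y j) l'
      ∈ vrad (W i₀) := by
    rw [hl', Finsupp.linearCombination_comapDomain]
    have h1 : ∑ q ∈ l.support.preimage e he.injOn, l (e q) • y q
        = ∑ j ∈ l.support, l j • y' j := by
      rw [← Finset.sum_preimage e l.support he.injOn (fun j => l j • y' j)]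
      · refine Finset.sum_congr rfl fun q _ => ?_
        have : y' q.1 = y q.1 := by simp [hy', q.2]
        simp only [e, this]
      · intro j _ hj
        have hne : π j ≠ i₀ := fun h => hj ⟨⟨j, h⟩, rfl⟩
        simp [hy', hne]
    rw [h1]
    have h2 : ∑ j ∈ l.support, l j • y' j
        = Finsupp.linearCombination K x l - ∑ j ∈ l.support, l j • (x j - y' j) := by
      rw [Finsupp.linearCombination_apply, Finsupp.sum, ← Finset.sum_sub_distrib]
      refine Finset.sum_congr rfl fun j _ => ?_
      rw [← smul_sub]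
      congr 1
      ring
    rw [h2]
    refine (vrad (W i₀)).sub_mem (mem_rad.mp hmem i₀) ?_
    exact (vrad (W i₀)).sum_mem fun j _ => hP.smul_mem_rad' (hl j) (hsmall j)
  have := (hy i₀).indep l' hl'A hkey ⟨j₀, rfl⟩
  rw [hl', Finsupp.comapDomain_apply] at this
  exact this

variable [Fintype ι]

/-- **The joint orthonormal family.** -/
theorem exists_joint_family_gen (hW : Incomparable W)
    (hA : ∀ i (a : K), algebraMap K F a ∈ W i ↔ a ∈ A)
    (hy : ∀ i, IsOrthoFamily A (W i).toSubring (vrad (W i)) (fun j : {j // π j = i} => y j)) :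
    ∃ x : J → F, IsOrthoFamily A (ball W) (rad W) x ∧
      (∀ j i, i ≠ π j → (W i).valuation (x j) < 1) ∧
      ∀ j, (W (π j)).valuation (x j - y j) < 1 := by
  have hymem : ∀ j, y j ∈ W (π j) := fun j => IsOrthoFamily.mem (hy (π j)) ⟨j, rfl⟩
  obtain ⟨x, hx1, hx2, hx3⟩ := exists_adjusted hW hymem
  exact ⟨x, isOrthoFamily_joint_gen hA hy hx1 hx2 hx3, hx2, hx3⟩

variable [Nonempty ι] [Fintype J] [FiniteDimensional K F]

/-- **The relative fundamental inequality** `∑ f_i ≤ [F : K]`. -/
theorem card_le_finrank_gen (hW : Incomparable W)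
    (hA : ∀ i (a : K), algebraMap K F a ∈ W i ↔ a ∈ A)
    (hy : ∀ i, IsOrthoFamily A (W i).toSubring (vrad (W i)) (fun j : {j // π j = i} => y j)) :
    Fintype.card J ≤ finrank K F := by
  obtain ⟨x, hx, -, -⟩ := exists_joint_family_gen hW hA hy
  exact (hx.linearIndependent (isNormPair_family hA)).fintype_card_le_finrank

/-- **Equality in the relative fundamental inequality**: the semilocal ball `⋂ W i` is `A`-free on
a `K`-basis of `F` lifting the local families. -/
theorem exists_basis_of_finrank_le (hW : Incomparable W)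
    (hA : ∀ i (a : K), algebraMap K F a ∈ W i ↔ a ∈ A)
    (hy : ∀ i, IsOrthoFamily A (W i).toSubring (vrad (W i)) (fun j : {j // π j = i} => y j))
    (hdeg : finrank K F ≤ Fintype.card J) :
    ∃ b : Basis J K F, IsOrthoFamily A (ball W) (rad W) b ∧
      (∀ j i, i ≠ π j → (W i).valuation (b j) < 1) ∧
      (∀ j, (W (π j)).valuation (b j - y j) < 1) ∧
      (∀ c : J → K, (∑ j, c j • b j) ∈ ball W ↔ ∀ j, c j ∈ A) ∧
      (∀ c : J → K, (∑ j, c j • b j) ∈ rad W ↔ ∀ j, c j ∈ A.nonunits) := by
  classical
  obtain ⟨x, hx, hx2, hx3⟩ := exists_joint_family_gen hW hA hy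
  have hP := isNormPair_family hA
  have hli := hx.linearIndependent hP
  have hcard : Fintype.card J = finrank K F := le_antisymm hli.fintype_card_le_finrank hdeg
  have hJ : Nonempty J := by
    rw [← Fintype.card_pos_iff, hcard]
    exact finrank_pos
  let b : Basis J K F := basisOfLinearIndependentOfCardEqFinrank hli hcard
  have hb : ⇑b = x := coe_basisOfLinearIndependentOfCardEqFinrank hli hcard
  have hsum : ∀ c : J → K, ∑ j, c j • x j
      = Finsupp.linearCombination K x (Finsupp.equivFunOnFinite.symm c) := by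
    intro c
    rw [Finsupp.linearCombination_apply, Finsupp.sum_fintype _ _ (fun i => zero_smul K (x i))]
    rfl
  refine ⟨b, by rw [hb]; exact hx, by rw [hb]; exact hx2, by rw [hb]; exact hx3, ?_, ?_⟩
  · intro c
    rw [hb, hsum, hx.linearCombination_mem_iff hP]
    exact Iff.rfl
  · intro c
    rw [hb, hsum, hx.linearCombination_mem_rad_iff hP]
    exact Iff.rfl

end family

/-! ### One reduction datum on a finite extension -/

section single

open Fermat.Agent.GJ.J1

variable {k Ft : Type*} [Field k] [Field Ft] [Algebra k Ft] (R : RedData K F k Ft)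

/-- the reduction map of one datum, on the subring `Rw.toSubring` -/
def red1 : R.Rw.toSubring →+* Ft where
  toFun x := R.red ⟨x, x.2⟩
  map_one' := map_one R.red
  map_mul' x y := map_mul R.red ⟨x, x.2⟩ ⟨y, y.2⟩
  map_zero' := map_zero R.red
  map_add' x y := map_add R.red ⟨x, x.2⟩ ⟨y, y.2⟩

theorem isRedSystem1 :
    IsRedSystem R.A R.Rw.toSubring (vrad R.Rw) R.res (red1 R).toAddMonoidHom
      (isNormPair_single R.algebraMap_mem_iff') where
  res_surj := R.res_surjective
  res_ker := R.orthoRedSystem.res_ker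
  red_ker := fun x => by
    show R.red ⟨x, x.2⟩ = 0 ↔ _
    rw [R.orthoRedSystem.red_ker, ValuationSubring.mem_nonunits_iff]
    exact Iff.rfl
  red_smul := fun a x => by
    show R.red ⟨(a : K) • (x : F), _⟩ = R.res a • R.red ⟨x, x.2⟩
    have h1 : (⟨(a : K) • (x : F),
        (isNormPair_single R.algebraMap_mem_iff').smul_mem_ball a.2 x.2⟩ : R.Rw)
        = ⟨algebraMap K F (a : K), (R.mem_A_iff a).1 a.2⟩ * ⟨x, x.2⟩ := by
      apply Subtype.ext
      show (a : K) • (x : F) = algebraMap K F (a : K) * (x : F)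
      rw [Algebra.smul_def]
    rw [h1, map_mul, R.red_algebraMap a, Algebra.smul_def]

/-- lifts of a `k`-linearly independent family of the residue field are orthonormal -/
theorem _root_.Fermat.Agent.GJ.J1.RedData.isOrthoFamily_of_red {M : Type*} (g : M → R.Rw)
    (hli : LinearIndependent k fun m => R.red (g m)) :
    IsOrthoFamily R.A R.Rw.toSubring (vrad R.Rw) fun m => ((g m : R.Rw) : F) :=
  (isRedSystem1 R).isOrthoFamily_of_linearIndependent
    (fun m => (⟨(g m : F), (g m).2⟩ : R.Rw.toSubring)) hli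

/-- **Residue degree inequality on a finite extension**: `[Ft : k] ≤ [F : K]`. -/
theorem _root_.Fermat.Agent.GJ.J1.RedData.finrank_residue_le_of_finite
    (R : RedData K F k Ft) [FiniteDimensional K F] :
    FiniteDimensional k Ft ∧ finrank k Ft ≤ finrank K F := by
  classical
  have hbound : ∀ s : Finset Ft, LinearIndependent k (fun v : s => (v : Ft)) →
      s.card ≤ finrank K F := by
    intro s hs
    choose lift hlift using R.red_surjective
    have hli : LinearIndependent k fun v : s => R.red (lift (v : Ft)) := by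
      simpa only [hlift] using hs
    have h1 := R.isOrthoFamily_of_red (fun v : s => lift (v : Ft)) hli
    have h2 := h1.linearIndependent (isNormPair_single R.algebraMap_mem_iff')
    simpa using h2.fintype_card_le_finrank
  have hrank : Module.rank k Ft ≤ (finrank K F : Cardinal) := rank_le hbound
  have hfd : FiniteDimensional k Ft :=
    Module.rank_lt_aleph0_iff.mp (lt_of_le_of_lt hrank (Cardinal.natCast_lt_aleph0))
  exact ⟨hfd, Module.finrank_le_of_rank_le hrank⟩

/-- elements of the open ball reduce to zero -/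
theorem _root_.Fermat.Agent.GJ.J1.RedData.isRed_zero_of_lt {x : F}
    (hx : R.Rw.valuation x < 1) : R.IsRed x 0 := by
  have hxm : x ∈ R.Rw := (R.Rw.valuation_le_one_iff x).mp (le_of_lt hx)
  refine ⟨hxm, (R.orthoRedSystem.red_ker ⟨x, hxm⟩).mpr ?_⟩
  rw [ValuationSubring.mem_nonunits_iff]
  exact hx

/-- congruent elements have the same reduction -/
theorem _root_.Fermat.Agent.GJ.J1.RedData.isRed_of_sub_lt {x : F} (g : R.Rw)
    (hx : R.Rw.valuation (x - (g : F)) < 1) : R.IsRed x (R.red g) := by
  obtain ⟨hd, hd0⟩ := R.isRed_zero_of_lt hx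
  have hxm : x ∈ R.Rw := by
    have : x = (x - (g : F)) + (g : F) := by ring
    rw [this]
    exact R.Rw.add_mem _ _ hd g.2
  refine ⟨hxm, ?_⟩
  have h1 : (⟨x, hxm⟩ : R.Rw) = ⟨x - (g : F), hd⟩ + g := by
    apply Subtype.ext
    show x = (x - (g : F)) + (g : F)
    ring
  rw [h1, map_add, hd0, zero_add]

end single

/-! ### Two reduction data on a finite extension -/

section two

open Fermat.Agent.GJ.J1

variable {k Ft1 Ft2 : Type*} [Field k] [Field Ft1] [Algebra k Ft1] [Field Ft2] [Algebra k Ft2]
  {R1 : RedData K F k Ft1} {R2 : RedData K F k Ft2}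

/-- two distinct valuation rings of a finite extension with the same restriction are
incomparable -/
theorem incomparable_pair_of_finite [Algebra.IsAlgebraic K F] {A : ValuationSubring K}
    {W1 W2 : ValuationSubring F} (hne : W1 ≠ W2)
    (hA1 : ∀ a : K, algebraMap K F a ∈ W1 ↔ a ∈ A) (hA2 : ∀ a : K, algebraMap K F a ∈ W2 ↔ a ∈ A) :
    Incomparable ![W1, W2] := by
  intro i j hij hle
  have key : ∀ {V V' : ValuationSubring F}, (∀ a : K, algebraMap K F a ∈ V ↔ a ∈ A) →
      (∀ a : K, algebraMap K F a ∈ V' ↔ a ∈ A) → V ≤ V' → V = V' := by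
    intro V V' hV hV' hle
    exact eq_of_le_of_isAlgebraic (K₀ := K) hle fun c hc => (hV c).mpr ((hV' c).mp hc)
  fin_cases i <;> fin_cases j
  · exact hij rfl
  · exact hne (key hA1 hA2 hle)
  · exact hne (key hA2 hA1 hle).symm
  · exact hij rfl

theorem pair_isOrthoFamily {A : ValuationSubring K} {W1 W2 : ValuationSubring F}
    {M1 M2 : Type*} {y1 : M1 → F} {y2 : M2 → F}
    (hy1 : IsOrthoFamily A W1.toSubring (vrad W1) y1)
    (hy2 : IsOrthoFamily A W2.toSubring (vrad W2) y2) :
    ∀ i : Fin 2, IsOrthoFamily A (![W1, W2] i).toSubring (vrad (![W1, W2] i))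
      (fun j : {j // pairIdx M1 M2 j = i} => Sum.elim y1 y2 j) := by
  rw [Fin.forall_fin_two]
  constructor
  · have h := IsOrthoFamily.comp hy1 (fibreZero_injective (M1 := M1) (M2 := M2))
    have h' : (y1 ∘ fibreZero M1 M2)
        = fun j : {j // pairIdx M1 M2 j = 0} => Sum.elim y1 y2 j := by
      funext j
      exact (elim_fibreZero (y1 := y1) (y2 := y2) j).symm
    rw [h'] at h
    exact h
  · have h := IsOrthoFamily.comp hy2 (fibreOne_injective (M1 := M1) (M2 := M2))
    have h' : (y2 ∘ fibreOne M1 M2)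
        = fun j : {j // pairIdx M1 M2 j = 1} => Sum.elim y1 y2 j := by
      funext j
      exact (elim_fibreOne (y1 := y1) (y2 := y2) j).symm
    rw [h'] at h
    exact h

/-- **Relative fundamental inequality for two reduction data.** -/
theorem sum_finrank_le_rel (hc : RedCompat R1 R2) (hne : R1.Rw ≠ R2.Rw) [FiniteDimensional K F] :
    finrank k Ft1 + finrank k Ft2 ≤ finrank K F := by
  classical
  have hf1 := R1.finrank_residue_le_of_finite.1
  have hf2 := R2.finrank_residue_le_of_finite.1
  let β1 := Module.finBasis k Ft1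
  let β2 := Module.finBasis k Ft2
  choose g1 hg1 using fun m => R1.red_surjective (β1 m)
  choose g2 hg2 using fun m => R2.red_surjective (β2 m)
  have hy1 := R1.isOrthoFamily_of_red g1 (by simpa only [hg1] using β1.linearIndependent)
  have hy2 : IsOrthoFamily R1.A R2.Rw.toSubring (vrad R2.Rw) fun m => ((g2 m : R2.Rw) : F) := by
    have h := R2.isOrthoFamily_of_red g2 (by simpa only [hg2] using β2.linearIndependent)
    rwa [← hc.A_eq] at h
  have hAll : ∀ i (a : K), algebraMap K F a ∈ ![R1.Rw, R2.Rw] i ↔ a ∈ R1.A :=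
    pair_forall (P := fun W => ∀ a : K, algebraMap K F a ∈ W ↔ a ∈ R1.A)
      R1.algebraMap_mem_iff' hc.mem_iff₂
  have h := card_le_finrank_gen (π := pairIdx _ _)
    (incomparable_pair_of_finite hne R1.algebraMap_mem_iff' hc.mem_iff₂) hAll
    (pair_isOrthoFamily hy1 hy2)
  simpa [Fintype.card_sum] using h

/-- **Equality in the relative fundamental inequality, two reduction data**: a `K`-basis `b` of
`F` with `Rw1 ⊓ Rw2 = ⊕ A b_j` whose pair reductions are the block basis `(β1, 0)`, `(0, β2)` of
`Ft1 × Ft2`. -/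
theorem exists_basis2 (hc : RedCompat R1 R2) (hne : R1.Rw ≠ R2.Rw) [FiniteDimensional K F]
    {M1 M2 : Type*} [Fintype M1] [Fintype M2] (β1 : Basis M1 k Ft1) (β2 : Basis M2 k Ft2)
    (hdeg : finrank K F ≤ Fintype.card M1 + Fintype.card M2) :
    ∃ b : Basis (M1 ⊕ M2) K F,
      (∀ j, b j ∈ ball2 R1 R2) ∧
      (∀ c : M1 ⊕ M2 → K, (∑ j, c j • b j) ∈ ball2 R1 R2 ↔ ∀ j, c j ∈ R1.A) ∧
      (∀ c : M1 ⊕ M2 → K, (∑ j, c j • b j) ∈ rad2 R1 R2 ↔ ∀ j, c j ∈ R1.A.nonunits) ∧
      (∀ m, R1.IsRed (b (Sum.inl m)) (β1 m) ∧ R2.IsRed (b (Sum.inl m)) 0) ∧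
      (∀ m, R1.IsRed (b (Sum.inr m)) 0 ∧ R2.IsRed (b (Sum.inr m)) (β2 m)) := by
  classical
  choose g1 hg1 using fun m => R1.red_surjective (β1 m)
  choose g2 hg2 using fun m => R2.red_surjective (β2 m)
  have hy1 := R1.isOrthoFamily_of_red g1 (by simpa only [hg1] using β1.linearIndependent)
  have hy2 : IsOrthoFamily R1.A R2.Rw.toSubring (vrad R2.Rw) fun m => ((g2 m : R2.Rw) : F) := by
    have h := R2.isOrthoFamily_of_red g2 (by simpa only [hg2] using β2.linearIndependent)
    rwa [← hc.A_eq] at h
  have hAll : ∀ i (a : K), algebraMap K F a ∈ ![R1.Rw, R2.Rw] i ↔ a ∈ R1.A :=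
    pair_forall (P := fun W => ∀ a : K, algebraMap K F a ∈ W ↔ a ∈ R1.A)
      R1.algebraMap_mem_iff' hc.mem_iff₂
  obtain ⟨b, hb, hb2, hb3, hb4, hb5⟩ := exists_basis_of_finrank_le (π := pairIdx M1 M2)
    (incomparable_pair_of_finite hne R1.algebraMap_mem_iff' hc.mem_iff₂) hAll
    (pair_isOrthoFamily hy1 hy2) (by rwa [Fintype.card_sum])
  rw [ball_pair] at hb4
  rw [rad_pair] at hb5
  have hmem : ∀ j, b j ∈ ball2 R1 R2 := fun j => by
    have := hb.mem j
    rwa [ball_pair] at this
  have h11 : ∀ m, R1.Rw.valuation (b (Sum.inl m) - ((g1 m : R1.Rw) : F)) < 1 := fun m => by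
    have h := hb3 (Sum.inl m)
    simp only [pairIdx, Sum.elim_inl, Matrix.cons_val_zero] at h
    exact h
  have h12 : ∀ m, R2.Rw.valuation (b (Sum.inl m)) < 1 := fun m => by
    have h := hb2 (Sum.inl m) 1 (by simp [pairIdx])
    simp only [Matrix.cons_val_one] at h
    exact h
  have h21 : ∀ m, R1.Rw.valuation (b (Sum.inr m)) < 1 := fun m => by
    have h := hb2 (Sum.inr m) 0 (by simp [pairIdx])
    simp only [Matrix.cons_val_zero] at h
    exact h
  have h22 : ∀ m, R2.Rw.valuation (b (Sum.inr m) - ((g2 m : R2.Rw) : F)) < 1 := fun m => by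
    have h := hb3 (Sum.inr m)
    simp only [pairIdx, Sum.elim_inr, Matrix.cons_val_one] at h
    exact h
  refine ⟨b, hmem, hb4, hb5, fun m => ⟨?_, R2.isRed_zero_of_lt (h12 m)⟩, fun m => ⟨R1.isRed_zero_of_lt (h21 m), ?_⟩⟩
  · have h' := R1.isRed_of_sub_lt (g1 m) (h11 m)
    rwa [hg1] at h'
  · have h' := R2.isRed_of_sub_lt (g2 m) (h22 m)
    rwa [hg2] at h'

end two

end Fermat.Agent.GK.MultiVal
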