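/-
GATE-K / K1-ABS part 7 (helper90): bridges from `HasOrthoBases` for the semilocal ball to the
shapes consumed by the other GATE-K nodes.

* `orthFam_of_hasOrthoBases` : helper39's `Lattice.OrthFam A W` (N9, `GK/Lattice/ResFam.lean`);
  `orthFam_pair`, `orthFam2` for two valuation subrings / two reduction data.
* `flat_redBall2_eq`, `le_finrank_flat_redBall2` : helper92's hypothesis `hO` of
  `Flat.finrank_add_le` (N7a, `GK/Flat/DeltaLe.lean`).
-/
import Mathlib
import Fermat.Agent.GK.MultiVal.TwoRedData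
import Fermat.Agent.GK.Lattice.ResFam
import Fermat.Agent.GK.Flat.DeltaLe

set_option autoImplicit false

open Module Polynomial IntermediateField

namespace Fermat.Agent.GK.MultiVal

open Fermat.Agent.GJ.J1

variable {K F : Type*} [Field K] [Field F] [Algebra K F]

/-- orthonormal bases for the semilocal ball give helper39's `OrthFam`. -/
theorem orthFam_of_hasOrthoBases {ι : Type*} {A : ValuationSubring K}
    {W : ι → ValuationSubring F} (ho : HasOrthoBases A (ball W) (rad W)) :
    Fermat.Agent.GK.Lattice.OrthFam A W := by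
  intro V hV
  have := hV
  obtain ⟨e, he1, he2, he3, -, he5, -⟩ := ho.exists_family V
  refine ⟨e, he1, fun j i => mem_ball.mp (he2 j) i, he3, fun c hc => ?_⟩
  exact (he5 c).mp (mem_ball.mpr hc)

theorem orthFam_pair {A : ValuationSubring K} {W1 W2 : ValuationSubring F}
    (ho : HasOrthoBases A (W1.toSubring ⊓ W2.toSubring) (vrad W1 ⊓ vrad W2)) :
    Fermat.Agent.GK.Lattice.OrthFam A ![W1, W2] := by
  rw [← ball_pair, ← rad_pair] at ho
  exact orthFam_of_hasOrthoBases ho

variable {k Ft1 Ft2 : Type*} [Field k] [Field Ft1] [Algebra k Ft1] [Field Ft2] [Algebra k Ft2]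
  {R1 : RedData K F k Ft1} {R2 : RedData K F k Ft2}

theorem orthFam2 (ho : HasOrthoBases R1.A (ball2 R1 R2) (rad2 R1 R2)) :
    Fermat.Agent.GK.Lattice.OrthFam R1.A ![R1.Rw, R2.Rw] :=
  orthFam_pair ho

/-- helper92's `Flat.redBall2` is the `redBall` of the pair reduction. -/
theorem flat_redBall2_eq (V : Submodule K F) :
    Fermat.Agent.GK.Flat.redBall2 R1 R2 V
      = redBall (k := k) (ball2 R1 R2) (red2 R1 R2).toAddMonoidHom V := by
  unfold Fermat.Agent.GK.Flat.redBall2 redBall
  congr 1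
  ext y
  constructor
  · rintro ⟨x, hxV, h1, h2, rfl⟩
    exact ⟨⟨x, mem_ball2.mpr ⟨h1, h2⟩⟩, hxV, rfl⟩
  · rintro ⟨x, hxV, rfl⟩
    exact ⟨x, hxV, (mem_ball2.mp x.2).1, (mem_ball2.mp x.2).2, rfl⟩

/-- **(ORTH2-dim)**: helper92's hypothesis `hO` of `Flat.finrank_add_le`. -/
theorem le_finrank_flat_redBall2 (hc : RedCompat R1 R2)
    (ho : HasOrthoBases R1.A (ball2 R1 R2) (rad2 R1 R2)) :
    ∀ V : Submodule K F, FiniteDimensional K V →
      finrank K V ≤ finrank k (Fermat.Agent.GK.Flat.redBall2 R1 R2 V) := by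
  intro V hV
  have := hV
  rw [flat_redBall2_eq, finrank_redBall2 hc ho V]

/-- equality form -/
theorem finrank_flat_redBall2 (hc : RedCompat R1 R2)
    (ho : HasOrthoBases R1.A (ball2 R1 R2) (rad2 R1 R2)) (V : Submodule K F)
    [FiniteDimensional K V] :
    finrank k (Fermat.Agent.GK.Flat.redBall2 R1 R2 V) = finrank K V := by
  rw [flat_redBall2_eq, finrank_redBall2 hc ho V]

end Fermat.Agent.GK.MultiVal
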