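/-
GATE-K / K1-ABS part 8 (helper90): the semilocal ball is a free module over the Gauss valuation
ring of `K(t)`; integrality.

`x : J → F` an orthonormal chart family for `(ball W, rad W)` spanning `F` over `K(t)` (this is the
output of `Family.lean` when `[F : K(t)] ≤ ∑ f_i`), `V0 := (W i₀).comap (algebraMap K(t) F)` the
Gauss valuation ring of `K(t)`.

* `sum_aeval_mem_iff` : `∑ P_j(t) x_j ∈ B ↔` all coefficients of all `P_j` lie in `A`.
* `coeff_mem_of_sum_mem` : `∑ c_j • x_j ∈ ball W` (`c_j ∈ K(t)`) forces `c_j ∈ ball W`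
  (orthonormality over `K(t)`).
* `isIntegral_of_chart`, `isIntegral_of_finrank_le` : every element of `ball W = ⋂ W i` is integral
  over `V0`;  `pair_isIntegral₁/₂`, `isIntegral_Ov₁/₂` for two valuation subrings / reduction data
  (the hypothesis `h` of helper96's `Red.redRegFinOn_of_isIntegral`).
-/
import Mathlib
import Fermat.Agent.GK.MultiVal.TwoRedData
import Fermat.Agent.GJ.J1.IntegralityRed

set_option autoImplicit false

open Module Polynomial IntermediateField

namespace Fermat.Agent.GK.MultiVal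

open Fermat.Agent.GJ.Ortho (chartFamily)

variable {K F : Type*} [Field K] [Field F] [Algebra K F]

section poly

variable {A : ValuationSubring K} {B : Subring F} {I : AddSubgroup F} {J : Type*} [Fintype J]
  {t : F} {x : J → F}

/-- the coefficient family of finitely many polynomials -/
noncomputable def polyCoeffs (P : J → K[X]) : J × ℕ →₀ K :=
  ∑ jn ∈ (Finset.univ : Finset J) ×ˢ
      Finset.range ((Finset.univ : Finset J).sup (fun j => (P j).natDegree) + 1),
    Finsupp.single jn ((P jn.1).coeff jn.2)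

theorem polyCoeffs_apply (P : J → K[X]) (j : J) (n : ℕ) :
    polyCoeffs P (j, n) = (P j).coeff n := by
  classical
  rw [polyCoeffs, Finsupp.finsetSum_apply]
  simp only [Finsupp.single_apply]
  rw [Finset.sum_ite_eq']
  split_ifs with h
  · rfl
  · symm
    apply coeff_eq_zero_of_natDegree_lt
    have h1 : ¬ n < (Finset.univ : Finset J).sup (fun j => (P j).natDegree) + 1 := by
      intro h2
      exact h (Finset.mem_product.mpr ⟨Finset.mem_univ _, Finset.mem_range.mpr h2⟩)
    have h3 : (P j).natDegree ≤ (Finset.univ : Finset J).sup (fun j => (P j).natDegree) :=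
      Finset.le_sup (f := fun j => (P j).natDegree) (Finset.mem_univ j)
    omega

theorem linearCombination_polyCoeffs (t : F) (x : J → F) (P : J → K[X]) :
    Finsupp.linearCombination K (chartFamily t x) (polyCoeffs P)
      = ∑ j, aeval t (P j) * x j := by
  classical
  rw [polyCoeffs, map_sum, Finset.sum_product]
  refine Finset.sum_congr rfl fun j _ => ?_
  have hdeg : (P j).natDegree <
      (Finset.univ : Finset J).sup (fun j => (P j).natDegree) + 1 :=
    Nat.lt_succ_of_le (Finset.le_sup (f := fun j => (P j).natDegree) (Finset.mem_univ j))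
  rw [aeval_eq_sum_range' hdeg, Finset.sum_mul]
  refine Finset.sum_congr rfl fun n _ => ?_
  rw [Finsupp.linearCombination_single, smul_mul_assoc]
  rfl

/-- membership of the ball is read off on the coefficients of the polynomials -/
theorem sum_aeval_mem_iff (h : IsNormPair A B I) (hx : IsOrthoFamily A B I (chartFamily t x))
    (P : J → K[X]) : (∑ j, aeval t (P j) * x j) ∈ B ↔ ∀ j n, (P j).coeff n ∈ A := by
  rw [← linearCombination_polyCoeffs, hx.linearCombination_mem_iff h]
  constructor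
  · intro hl j n
    have := hl (j, n)
    rwa [polyCoeffs_apply] at this
  · rintro hl ⟨j, n⟩
    rw [polyCoeffs_apply]
    exact hl j n

/-- membership of the open ball is read off on the coefficients of the polynomials -/
theorem sum_aeval_mem_rad_iff (h : IsNormPair A B I) (hx : IsOrthoFamily A B I (chartFamily t x))
    (P : J → K[X]) : (∑ j, aeval t (P j) * x j) ∈ I ↔ ∀ j n, (P j).coeff n ∈ A.nonunits := by
  rw [← linearCombination_polyCoeffs, hx.linearCombination_mem_rad_iff h]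
  constructor
  · intro hl j n
    have := hl (j, n)
    rwa [polyCoeffs_apply] at this
  · rintro hl ⟨j, n⟩
    rw [polyCoeffs_apply]
    exact hl j n

end poly

section family

variable {ι : Type*} [Nonempty ι] {A : ValuationSubring K} {W : ι → ValuationSubring F} {t : F}
  {J : Type*} [Fintype J] {x : J → F}

/-- **Orthonormality over `K(t)`**: if `∑ c_j • x_j` lies in the semilocal ball then so do all the
coefficients `c_j ∈ K(t)`. -/
theorem coeff_mem_of_sum_mem (hA : ∀ i (a : K), algebraMap K F a ∈ W i ↔ a ∈ A)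
    (hG : ∀ i, IsGaussChartFor A (W i) t)
    (hx : IsOrthoFamily A (ball W) (rad W) (chartFamily t x))
    (c : J → K⟮t⟯) (hsum : ∑ j, c j • x j ∈ ball W) : ∀ j, ((c j : K⟮t⟯) : F) ∈ ball W := by
  classical
  have hex : ∀ j, ∃ r q : K[X], aeval t q ≠ 0 ∧
      ((c j : K⟮t⟯) : F) = aeval t r / aeval t q := by
    intro j
    obtain ⟨r, q, hrq⟩ := (mem_adjoin_simple_iff K ((c j : K⟮t⟯) : F)).mp (c j).2
    by_cases hq : aeval t q = 0
    · refine ⟨0, 1, by simp, ?_⟩
      rw [hrq, hq, div_zero, map_zero, zero_div]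
    · exact ⟨r, q, hq, hrq⟩
  choose r q hq hc using hex
  set D : K[X] := ∏ j, q j with hD
  have hDx : aeval t D ≠ 0 := by
    rw [hD, map_prod]
    exact Finset.prod_ne_zero_iff.mpr fun j _ => hq j
  have hD0 : D ≠ 0 := fun h => hDx (by rw [h, map_zero])
  set P : J → K[X] := fun j => r j * ∏ i ∈ Finset.univ.erase j, q i with hP
  have hPc : ∀ j, aeval t (P j) = aeval t D * ((c j : K⟮t⟯) : F) := by
    intro j
    rw [hc j, hP, hD, ← Finset.mul_prod_erase Finset.univ q (Finset.mem_univ j)]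
    simp only [map_mul]
    field_simp [hq j]
  obtain ⟨n0, hn0, hmax⟩ := exists_max_coeff_poly A hD0
  set d0 := D.coeff n0 with hd0
  -- the normalised denominator is a unit of the ball
  have hunit : IsBallUnit (ball W) (aeval t (C d0⁻¹ * D)) :=
    isBallUnit_ball_iff.mpr fun i => (hG i).valuation_aeval_eq_one (hA i) hn0 hmax
  have hP' : ∀ j, aeval t (C d0⁻¹ * P j) = aeval t (C d0⁻¹ * D) * ((c j : K⟮t⟯) : F) := by
    intro j
    have h1 : aeval t (C d0⁻¹ * P j) = aeval t (C d0⁻¹) * aeval t (P j) := map_mul _ _ _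
    have h2 : aeval t (C d0⁻¹ * D) = aeval t (C d0⁻¹) * aeval t D := map_mul _ _ _
    rw [h1, h2, hPc j, mul_assoc]
  have hmem : (∑ j, aeval t (C d0⁻¹ * P j) * x j) ∈ ball W := by
    have h1 : ∑ j, aeval t (C d0⁻¹ * P j) * x j = aeval t (C d0⁻¹ * D) * ∑ j, c j • x j := by
      rw [Finset.mul_sum]
      refine Finset.sum_congr rfl fun j _ => ?_
      rw [hP' j, Algebra.smul_def, mul_assoc]
      rfl
    rw [h1]
    exact (ball W).mul_mem hunit.1 hsum
  have hcoeff := (sum_aeval_mem_iff (isNormPair_family hA) hx _).mp hmem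
  intro j
  have h2 : aeval t (C d0⁻¹ * P j) ∈ ball W :=
    mem_ball.mpr fun i => ((hG i).aeval_mem_iff (hA i) _).mpr (hcoeff j)
  have h3 : ((c j : K⟮t⟯) : F) = (aeval t (C d0⁻¹ * D))⁻¹ * aeval t (C d0⁻¹ * P j) := by
    rw [hP' j, ← mul_assoc, inv_mul_cancel₀ hunit.2.2, one_mul]
  rw [h3]
  exact (ball W).mul_mem hunit.2.1 h2

/-- **Integrality**: if the orthonormal chart family `x` spans `F` over `K(t)`, every element of the
semilocal ball `⋂ W i` is integral over the Gauss valuation ring `W i₀ ∩ K(t)` of `K(t)`; indeed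
`⋂ W i = ⊕ (W i₀ ∩ K(t)) x_j`. -/
theorem isIntegral_of_chart (hA : ∀ i (a : K), algebraMap K F a ∈ W i ↔ a ∈ A)
    (hG : ∀ i, IsGaussChartFor A (W i) t)
    (hx : IsOrthoFamily A (ball W) (rad W) (chartFamily t x))
    (hspan : Submodule.span K⟮t⟯ (Set.range x) = ⊤) (i₀ : ι) {z : F} (hz : z ∈ ball W) :
    IsIntegral ((W i₀).comap (algebraMap K⟮t⟯ F)) z := by
  -- the restriction to `K(t)` does not depend on the valuation subring
  have hrestr : ∀ c : K⟮t⟯, ((c : K⟮t⟯) : F) ∈ W i₀ → ((c : K⟮t⟯) : F) ∈ ball W := by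
    intro c hc0
    obtain ⟨a, ha⟩ := exists_scalar_of_mem_adjoin A t c.2
    refine mem_ball.mpr fun i => ?_
    have h0 := ha (W i₀) (hA i₀) (hG i₀)
    have hi := ha (W i) (hA i) (hG i)
    rw [← ValuationSubring.valuation_le_one_iff] at hc0 ⊢
    rw [h0, ValuationSubring.valuation_le_one_iff, hA i₀] at hc0
    rw [hi, ValuationSubring.valuation_le_one_iff, hA i]
    exact hc0
  let S : Subalgebra ((W i₀).comap (algebraMap K⟮t⟯ F)) F :=
    { ball W with algebraMap_mem' := fun c => hrestr c.1 c.2 }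
  have hS : Subalgebra.toSubmodule S
      = Submodule.span ((W i₀).comap (algebraMap K⟮t⟯ F)) (Set.range x) := by
    apply le_antisymm
    · intro y hy
      have hy' : y ∈ ball W := hy
      have hy1 : y ∈ Submodule.span K⟮t⟯ (Set.range x) := by rw [hspan]; trivial
      obtain ⟨c, hc⟩ := (Submodule.mem_span_range_iff_exists_fun K⟮t⟯).1 hy1
      have hcw := coeff_mem_of_sum_mem hA hG hx c (by rw [hc]; exact hy')
      rw [← hc]
      refine Submodule.sum_mem _ fun j _ => ?_
      have : c j • x j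
          = (⟨c j, mem_ball.mp (hcw j) i₀⟩ : (W i₀).comap (algebraMap K⟮t⟯ F)) • x j := rfl
      rw [this]
      exact Submodule.smul_mem _ _ (Submodule.subset_span ⟨j, rfl⟩)
    · rw [Submodule.span_le]
      rintro _ ⟨j, rfl⟩
      have h1 := hx.mem (j, 0)
      have h2 : x j ∈ ball W := by simpa [chartFamily] using h1
      exact h2
  have hfg : (Subalgebra.toSubmodule S).FG := by
    rw [hS]; exact Submodule.fg_span (Set.finite_range x)
  exact IsIntegral.of_mem_of_fg S hfg z hz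

/-- **Integrality from equality in the fundamental inequality.** -/
theorem isIntegral_of_finrank_le [Fintype ι] {π : J → ι} {y : J → F} [FiniteDimensional K⟮t⟯ F]
    (hW : Incomparable W)
    (hA : ∀ i (a : K), algebraMap K F a ∈ W i ↔ a ∈ A) (hG : ∀ i, IsGaussChartFor A (W i) t)
    (hy : ∀ i, IsChartOrtho A (W i) t (fun j : {j // π j = i} => y j))
    (hdeg : finrank K⟮t⟯ F ≤ Fintype.card J) (i₀ : ι) {z : F} (hz : z ∈ ball W) :
    IsIntegral ((W i₀).comap (algebraMap K⟮t⟯ F)) z := by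
  obtain ⟨x, hx, -, -⟩ := exists_joint_family hW hA hG hy
  have hli := linearIndependent_adjoin_of_chart (hx.linearIndependent (isNormPair_family hA))
  have hcard : Fintype.card J = finrank K⟮t⟯ F :=
    le_antisymm hli.fintype_card_le_finrank hdeg
  exact isIntegral_of_chart hA hG hx (hli.span_eq_top_of_card_eq_finrank' hcard) i₀ hz

end family

section pair

variable {A : ValuationSubring K} {W1 W2 : ValuationSubring F} {t : F}
  {M1 M2 : Type*} [Fintype M1] [Fintype M2] {y1 : M1 → F} {y2 : M2 → F}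

/-- integrality over the restriction of the FIRST valuation subring -/
theorem pair_isIntegral₁ [FiniteDimensional K⟮t⟯ F] (hne : W1 ≠ W2)
    (hA1 : ∀ a : K, algebraMap K F a ∈ W1 ↔ a ∈ A) (hA2 : ∀ a : K, algebraMap K F a ∈ W2 ↔ a ∈ A)
    (hG1 : IsGaussChartFor A W1 t) (hG2 : IsGaussChartFor A W2 t)
    (hy1 : IsChartOrtho A W1 t y1) (hy2 : IsChartOrtho A W2 t y2)
    (hdeg : finrank K⟮t⟯ F ≤ Fintype.card M1 + Fintype.card M2) {z : F} (hz1 : z ∈ W1)
    (hz2 : z ∈ W2) : IsIntegral (W1.comap (algebraMap K⟮t⟯ F)) z := by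
  have hz : z ∈ ball ![W1, W2] := by
    rw [ball_pair, Subring.mem_inf]; exact ⟨hz1, hz2⟩
  exact isIntegral_of_finrank_le (J := M1 ⊕ M2) (π := pairIdx M1 M2) (y := Sum.elim y1 y2)
    (incomparable_pair hne hA1 hA2 hG1 hG2)
    (pair_forall (P := fun W => ∀ a : K, algebraMap K F a ∈ W ↔ a ∈ A) hA1 hA2)
    (pair_forall (P := fun W => IsGaussChartFor A W t) hG1 hG2)
    (pair_isChartOrtho hy1 hy2) (by rwa [Fintype.card_sum]) (0 : Fin 2) hz

/-- integrality over the restriction of the SECOND valuation subring -/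
theorem pair_isIntegral₂ [FiniteDimensional K⟮t⟯ F] (hne : W1 ≠ W2)
    (hA1 : ∀ a : K, algebraMap K F a ∈ W1 ↔ a ∈ A) (hA2 : ∀ a : K, algebraMap K F a ∈ W2 ↔ a ∈ A)
    (hG1 : IsGaussChartFor A W1 t) (hG2 : IsGaussChartFor A W2 t)
    (hy1 : IsChartOrtho A W1 t y1) (hy2 : IsChartOrtho A W2 t y2)
    (hdeg : finrank K⟮t⟯ F ≤ Fintype.card M1 + Fintype.card M2) {z : F} (hz1 : z ∈ W1)
    (hz2 : z ∈ W2) : IsIntegral (W2.comap (algebraMap K⟮t⟯ F)) z := by
  have hz : z ∈ ball ![W1, W2] := by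
    rw [ball_pair, Subring.mem_inf]; exact ⟨hz1, hz2⟩
  exact isIntegral_of_finrank_le (J := M1 ⊕ M2) (π := pairIdx M1 M2) (y := Sum.elim y1 y2)
    (incomparable_pair hne hA1 hA2 hG1 hG2)
    (pair_forall (P := fun W => ∀ a : K, algebraMap K F a ∈ W ↔ a ∈ A) hA1 hA2)
    (pair_forall (P := fun W => IsGaussChartFor A W t) hG1 hG2)
    (pair_isChartOrtho hy1 hy2) (by rwa [Fintype.card_sum]) (1 : Fin 2) hz

end pair

section twoRedData

open Fermat.Agent.GJ.J1

variable {k Ft1 Ft2 : Type*} [Field k] [Field Ft1] [Algebra k Ft1] [Field Ft2] [Algebra k Ft2]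
  {R1 : RedData K F k Ft1} {R2 : RedData K F k Ft2}

/-- **Integrality over the Gauss ring, first component**: the hypothesis `h` of helper96's
`Red.redRegFinOn_of_isIntegral` for `R := R1`, `S := ball2 R1 R2`. -/
theorem isIntegral_Ov₁ (hc : RedCompat R1 R2) (hne : R1.Rw ≠ R2.Rw) {t : F}
    (ht1 : R1.IsGaussChart t) (ht2 : R2.IsGaussChart t) [FiniteDimensional K⟮t⟯ F]
    (hdeg : finrank K⟮t⟯ F ≤
      finrank k⟮R1.red ⟨t, ht1.1⟩⟯ Ft1 + finrank k⟮R2.red ⟨t, ht2.1⟩⟯ Ft2)
    {z : F} (hz1 : z ∈ R1.Rw) (hz2 : z ∈ R2.Rw) : IsIntegral (IntRed.Ov R1 t) z := by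
  have hf1 := (Fermat.Agent.GJ.S37.ResDeg.finrank_residue_le R1.A R1.Rw
    (fun a ha => (R1.mem_A_iff a).1 ha) R1.red R1.res R1.red_algebraMap R1.red_surjective
    ⟨t, ht1.1⟩ ht1.2).1
  have hf2 := (Fermat.Agent.GJ.S37.ResDeg.finrank_residue_le R2.A R2.Rw
    (fun a ha => (R2.mem_A_iff a).1 ha) R2.red R2.res R2.red_algebraMap R2.red_surjective
    ⟨t, ht2.1⟩ ht2.2).1
  obtain ⟨y1, hy1⟩ := R1.exists_isChartOrtho ht1
  obtain ⟨y2, hy2⟩ := R2.exists_isChartOrtho ht2
  have hy2' : IsChartOrtho R1.A R2.Rw t y2 := by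
    have h := hy2
    rwa [← hc.A_eq] at h
  exact pair_isIntegral₁ hne R1.algebraMap_mem_iff' hc.mem_iff₂
    (R1.isGaussChartFor ht1) (hc.isGaussChartFor₂ ht2) hy1 hy2' (by simpa using hdeg) hz1 hz2

/-- **Integrality over the Gauss ring, second component.** -/
theorem isIntegral_Ov₂ (hc : RedCompat R1 R2) (hne : R1.Rw ≠ R2.Rw) {t : F}
    (ht1 : R1.IsGaussChart t) (ht2 : R2.IsGaussChart t) [FiniteDimensional K⟮t⟯ F]
    (hdeg : finrank K⟮t⟯ F ≤
      finrank k⟮R1.red ⟨t, ht1.1⟩⟯ Ft1 + finrank k⟮R2.red ⟨t, ht2.1⟩⟯ Ft2)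
    {z : F} (hz1 : z ∈ R1.Rw) (hz2 : z ∈ R2.Rw) : IsIntegral (IntRed.Ov R2 t) z := by
  have hf1 := (Fermat.Agent.GJ.S37.ResDeg.finrank_residue_le R1.A R1.Rw
    (fun a ha => (R1.mem_A_iff a).1 ha) R1.red R1.res R1.red_algebraMap R1.red_surjective
    ⟨t, ht1.1⟩ ht1.2).1
  have hf2 := (Fermat.Agent.GJ.S37.ResDeg.finrank_residue_le R2.A R2.Rw
    (fun a ha => (R2.mem_A_iff a).1 ha) R2.red R2.res R2.red_algebraMap R2.red_surjective
    ⟨t, ht2.1⟩ ht2.2).1
  obtain ⟨y1, hy1⟩ := R1.exists_isChartOrtho ht1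
  obtain ⟨y2, hy2⟩ := R2.exists_isChartOrtho ht2
  have hy2' : IsChartOrtho R1.A R2.Rw t y2 := by
    have h := hy2
    rwa [← hc.A_eq] at h
  exact pair_isIntegral₂ hne R1.algebraMap_mem_iff' hc.mem_iff₂
    (R1.isGaussChartFor ht1) (hc.isGaussChartFor₂ ht2) hy1 hy2' (by simpa using hdeg) hz1 hz2

end twoRedData

end Fermat.Agent.GK.MultiVal
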