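/-
GATE-K / K1-ABS part 9 (helper90): bridge to helper96's relative M-GAUSS (`GK/Red/RelInt.lean`):
when `[F : K(t)] ≤ f1 + f2`, both components satisfy `RedRegFinOn R_i (Rw1 ⊓ Rw2) t`.
-/
import Mathlib
import Fermat.Agent.GK.MultiVal.Integral
import Fermat.Agent.GK.Red.RelInt

set_option autoImplicit false

open Module Polynomial IntermediateField

namespace Fermat.Agent.GK.MultiVal

open Fermat.Agent.GJ.J1 Fermat.Agent.GK.Red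

variable {K F k Ft1 Ft2 : Type*} [Field K] [Field F] [Algebra K F] [Field k]
  [Field Ft1] [Algebra k Ft1] [Field Ft2] [Algebra k Ft2]
  {R1 : RedData K F k Ft1} {R2 : RedData K F k Ft2}

/-- relative M-GAUSS for both components at the chart `t` -/
theorem redRegFinOn_pair (hc : RedCompat R1 R2) (hne : R1.Rw ≠ R2.Rw) {t : F}
    (ht1 : R1.IsGaussChart t) (ht2 : R2.IsGaussChart t) [FiniteDimensional K⟮t⟯ F]
    (hdeg : finrank K⟮t⟯ F ≤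
      finrank k⟮R1.red ⟨t, ht1.1⟩⟯ Ft1 + finrank k⟮R2.red ⟨t, ht2.1⟩⟯ Ft2) :
    RedRegFinOn R1 (ball2 R1 R2) t ∧ RedRegFinOn R2 (ball2 R1 R2) t :=
  ⟨redRegFinOn_of_isIntegral ht1 fun _ hz _ =>
      isIntegral_Ov₁ hc hne ht1 ht2 hdeg (mem_ball2.mp hz).1 (mem_ball2.mp hz).2,
   redRegFinOn_of_isIntegral ht2 fun _ hz _ =>
      isIntegral_Ov₂ hc hne ht1 ht2 hdeg (mem_ball2.mp hz).1 (mem_ball2.mp hz).2⟩

/-- relative M-GAUSS for both components at the chart `t⁻¹` -/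
theorem redRegFinOn_inv_pair (hc : RedCompat R1 R2) (hne : R1.Rw ≠ R2.Rw) {t : F}
    (ht1 : R1.IsGaussChart t) (ht2 : R2.IsGaussChart t) (hti1 : t⁻¹ ∈ R1.Rw)
    (hti2 : t⁻¹ ∈ R2.Rw) [FiniteDimensional K⟮t⟯ F]
    (hdeg : finrank K⟮t⟯ F ≤
      finrank k⟮R1.red ⟨t, ht1.1⟩⟯ Ft1 + finrank k⟮R2.red ⟨t, ht2.1⟩⟯ Ft2) :
    RedRegFinOn R1 (ball2 R1 R2) t⁻¹ ∧ RedRegFinOn R2 (ball2 R1 R2) t⁻¹ :=
  ⟨redRegFinOn_inv_of_isIntegral ht1 hti1 fun _ hz _ =>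
      isIntegral_Ov₁ hc hne ht1 ht2 hdeg (mem_ball2.mp hz).1 (mem_ball2.mp hz).2,
   redRegFinOn_inv_of_isIntegral ht2 hti2 fun _ hz _ =>
      isIntegral_Ov₂ hc hne ht1 ht2 hdeg (mem_ball2.mp hz).1 (mem_ball2.mp hz).2⟩

end Fermat.Agent.GK.MultiVal
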