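/-
GATE-K / (G1) BRIDGE, generic half (helper40).  Mathlib + helper90's `Approx.lean` only.

Two incomparable valuation subrings `V1`, `V2` of a field `F`, a subgroup `Cst ≤ Fˣ` of "constants"
such that `V2` is unramified over them (every unit of `F` is a constant times a `V2`-unit).
`Cst ⊔ V_i.principalUnitGroup` = the units that are a constant times a principal unit of `V_i`
(= `ker r_i` in unit language).

* `exists_common_rep` : if `u1` is constant·principal for `V1`, `u2` is constant·principal for `V2`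
  and `u1 = u2 · v ^ m`, then there is `t` with `u1 / t ^ m` constant·principal for BOTH.
  (Weak approximation: `t ≡ 1 mod 𝔪₁`, `t ≡ v / a mod 𝔪₂`.)

So a Kummer class lying in `ker r₁ ∩ ker r₂` has ONE representative with constant reductions for both
valuations.
-/
import Fermat.Agent.GK.MultiVal.Approx

set_option autoImplicit false

namespace Fermat.Agent.GK.MultiVal

variable {F : Type*} [Field F]

/-- an element close to a unit is a unit, and the quotient is a principal unit -/
theorem div_mem_principalUnitGroup_of_sub (V : ValuationSubring F) {g t : Fˣ}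
    (hg : g ∈ V.unitGroup) (h : V.valuation ((t : F) - (g : F)) < 1) :
    g / t ∈ V.principalUnitGroup := by
  rw [ValuationSubring.mem_unitGroup_iff] at hg
  have ht : V.valuation (t : F) = 1 := by
    have e : (t : F) = (g : F) + ((t : F) - (g : F)) := by ring
    rw [e, Valuation.map_add_eq_of_lt_left _ (by rw [hg]; exact h), hg]
  rw [ValuationSubring.mem_principalUnitGroup_iff]
  have e : ((g / t : Fˣ) : F) - 1 = ((g : F) - (t : F)) / (t : F) := by
    rw [Units.val_div_eq_div_val, sub_div, div_self t.ne_zero]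
  rw [e, map_div₀, ht, div_one, Valuation.map_sub_swap]
  exact h

/-- **One representative for both valuations.** -/
theorem exists_common_rep (V1 V2 : ValuationSubring F) (hinc : Incomparable ![V1, V2])
    (Cst : Subgroup Fˣ) (hunr : ∀ u : Fˣ, ∃ a ∈ Cst, u / a ∈ V2.unitGroup) (m : ℕ)
    {u1 u2 v : Fˣ} (h1 : u1 ∈ Cst ⊔ V1.principalUnitGroup)
    (h2 : u2 ∈ Cst ⊔ V2.principalUnitGroup) (h : u1 = u2 * v ^ m) :
    ∃ t : Fˣ, u1 / t ^ m ∈ Cst ⊔ V1.principalUnitGroup ∧
      u1 / t ^ m ∈ Cst ⊔ V2.principalUnitGroup := by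
  obtain ⟨c1, hc1, p1, hp1, rfl⟩ := Subgroup.mem_sup.1 h1
  obtain ⟨c2, hc2, p2, hp2, rfl⟩ := Subgroup.mem_sup.1 h2
  obtain ⟨a, ha, hg⟩ := hunr v
  set g : Fˣ := v / a with hgdef
  -- weak approximation
  have hmem : ∀ i : Fin 2, (![(1 : F), (g : F)]) i ∈ (![V1, V2]) i := by
    rw [Fin.forall_fin_two]
    refine ⟨V1.one_mem, ?_⟩
    show (g : F) ∈ V2
    rw [← ValuationSubring.valuation_le_one_iff, (ValuationSubring.mem_unitGroup_iff _ _).1 hg]
  obtain ⟨x, -, hx⟩ := exists_approx hinc (![(1 : F), (g : F)]) hmem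
  have hx1 : V1.valuation (x - 1) < 1 := hx 0
  have hx2 : V2.valuation (x - (g : F)) < 1 := hx 1
  have hx0 : x ≠ 0 := by
    rintro rfl
    rw [zero_sub, Valuation.map_neg, map_one] at hx1
    exact lt_irrefl _ hx1
  set t : Fˣ := Units.mk0 x hx0 with ht
  have ht1 : t ∈ V1.principalUnitGroup := by
    rw [ValuationSubring.mem_principalUnitGroup_iff]
    exact hx1
  have ht2 : g / t ∈ V2.principalUnitGroup := div_mem_principalUnitGroup_of_sub V2 hg hx2
  refine ⟨t, ?_, ?_⟩
  · refine Subgroup.mem_sup.2 ⟨c1, hc1, p1 / t ^ m,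
      Subgroup.div_mem _ hp1 (Subgroup.pow_mem _ ht1 m), ?_⟩
    rw [mul_div_assoc]
  · refine Subgroup.mem_sup.2 ⟨c2 * a ^ m, Subgroup.mul_mem _ hc2 (Subgroup.pow_mem _ ha m),
      p2 * (g / t) ^ m, Subgroup.mul_mem _ hp2 (Subgroup.pow_mem _ ht2 m), ?_⟩
    rw [h, hgdef, div_pow, div_pow]
    refine Units.ext ?_
    have ha0 : ((a : Fˣ) : F) ≠ 0 := a.ne_zero
    have ht0 : ((t : Fˣ) : F) ≠ 0 := t.ne_zero
    simp only [Units.val_mul, Units.val_pow_eq_pow_val, Units.val_div_eq_div_val]
    field_simp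

end Fermat.Agent.GK.MultiVal
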