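/-
GATE-K / (G1) BRIDGE, generic half, part 2 (helper40).  Mathlib + `Approx.lean` + `PrinRep.lean`.

`exists_common_rep` (`PrinRep.lean`) gives ONE representative `u' = c₁ p₁ = c₂ p₂` with `p_i` a
principal unit of `V_i`, but the two constants may have DIFFERENT valuations (`w₁(u') ≠ w₂(u')`:
a vertical component in the divisor of `u'`).  When the value group is archimedean on the
constants and the constants are `m`-divisible, the vertical part is an `m`-th power:

* `exists_adjust`, `exists_adjust'` : for a constant `c` there is `x ≡ 1 mod 𝔪₁` with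
  `x / c ≡ 1 mod 𝔪₂` (weak approximation + `y ^ M` small);
* `exists_common_prin_rep` : if `u1` is constant·principal for `V1`, `u2` constant·principal for
  `V2`, `u1 = u2 · v ^ m`, then `u1 = c₀ · t ^ m · u` with `c₀` constant and `u` a PRINCIPAL unit of
  BOTH `V1` and `V2` (both reductions equal to `1`).
-/
import Fermat.Agent.GK.MultiVal.PrinRep

set_option autoImplicit false

namespace Fermat.Agent.GK.MultiVal

variable {F : Type*} [Field F]

theorem val_pow_sub_one_lt (V : ValuationSubring F) {y : F} (h : V.valuation (y - 1) < 1)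
    (M : ℕ) : V.valuation (y ^ M - 1) < 1 := by
  have hy : V.valuation y ≤ 1 := by
    have e : y = (y - 1) + 1 := by ring
    rw [e]
    refine le_trans (Valuation.map_add _ _ _) (max_le h.le ?_)
    rw [map_one]
  induction M with
  | zero => rw [pow_zero, sub_self, map_zero]; exact zero_lt_one
  | succ M ih =>
    have e : y ^ (M + 1) - 1 = y * (y ^ M - 1) + (y - 1) := by ring
    rw [e]
    refine Valuation.map_add_lt _ ?_ h
    rw [map_mul]
    calc V.valuation y * V.valuation (y ^ M - 1) ≤ 1 * V.valuation (y ^ M - 1) := by gcongr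
      _ < 1 := by rw [one_mul]; exact ih

/-- weak approximation with a prescribed (integral) constant value at the second valuation -/
theorem exists_adjust (V1 V2 : ValuationSubring F) (hinc : Incomparable ![V1, V2]) (c : Fˣ)
    (hc1 : (c : F) ∈ V1) (hc2 : (c : F) ∈ V2)
    (harch : ∀ y : F, V2.valuation y < 1 → ∃ M : ℕ, V2.valuation (y ^ M) < V2.valuation (c : F)) :
    ∃ x : Fˣ, x ∈ V1.principalUnitGroup ∧ x / c ∈ V2.principalUnitGroup := by
  have hmem : ∀ i : Fin 2, (![(1 : F), (0 : F)]) i ∈ (![V1, V2]) i := by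
    rw [Fin.forall_fin_two]
    exact ⟨V1.one_mem, V2.zero_mem⟩
  obtain ⟨y, -, hy⟩ := exists_approx hinc (![(1 : F), (0 : F)]) hmem
  have hy1 : V1.valuation (y - 1) < 1 := hy 0
  have hy2 : V2.valuation y < 1 := by
    have h : V2.valuation (y - 0) < 1 := hy 1
    rwa [sub_zero] at h
  obtain ⟨M, hM⟩ := harch y hy2
  set x0 : F := y ^ M + (c : F) * (1 - y ^ M) with hx0
  have hx1 : V1.valuation (x0 - 1) < 1 := by
    have e : x0 - 1 = (y ^ M - 1) * (1 - (c : F)) := by rw [hx0]; ring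
    rw [e, map_mul]
    have h1 : V1.valuation (1 - (c : F)) ≤ 1 := by
      rw [ValuationSubring.valuation_le_one_iff]
      exact sub_mem V1.one_mem hc1
    calc V1.valuation (y ^ M - 1) * V1.valuation (1 - (c : F))
        ≤ V1.valuation (y ^ M - 1) * 1 := by gcongr
      _ < 1 := by rw [mul_one]; exact val_pow_sub_one_lt V1 hy1 M
  have hx00 : x0 ≠ 0 := by
    intro h0
    rw [h0, zero_sub, Valuation.map_neg, map_one] at hx1
    exact lt_irrefl _ hx1
  refine ⟨Units.mk0 x0 hx00, ?_, ?_⟩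
  · rw [ValuationSubring.mem_principalUnitGroup_iff]
    exact hx1
  · rw [ValuationSubring.mem_principalUnitGroup_iff]
    have hc0 : (c : F) ≠ 0 := c.ne_zero
    have e : ((Units.mk0 x0 hx00 / c : Fˣ) : F) - 1 = y ^ M * (1 - (c : F)) / (c : F) := by
      rw [Units.val_div_eq_div_val, Units.val_mk0, hx0]
      field_simp
      ring
    rw [e, map_div₀, map_mul]
    have hcv : V2.valuation (c : F) ≠ 0 := (Valuation.ne_zero_iff _).2 hc0
    rw [div_lt_one₀ (zero_lt_iff.2 hcv)]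
    have h1 : V2.valuation (1 - (c : F)) ≤ 1 := by
      rw [ValuationSubring.valuation_le_one_iff]
      exact sub_mem V2.one_mem hc2
    calc V2.valuation (y ^ M) * V2.valuation (1 - (c : F))
        ≤ V2.valuation (y ^ M) * 1 := by gcongr
      _ < V2.valuation (c : F) := by rw [mul_one]; exact hM

/-- the same for an arbitrary constant -/
theorem exists_adjust' (V1 V2 : ValuationSubring F) (hinc : Incomparable ![V1, V2])
    (Cst : Subgroup Fˣ)
    (hCst : ∀ c ∈ Cst, ((c : Fˣ) : F) ∈ V1 ↔ ((c : Fˣ) : F) ∈ V2)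
    (harch : ∀ y : F, V2.valuation y < 1 → ∀ c ∈ Cst,
      ∃ M : ℕ, V2.valuation (y ^ M) < V2.valuation ((c : Fˣ) : F))
    (c : Fˣ) (hc : c ∈ Cst) :
    ∃ x : Fˣ, x ∈ V1.principalUnitGroup ∧ x / c ∈ V2.principalUnitGroup := by
  by_cases h2 : ((c : Fˣ) : F) ∈ V2
  · exact exists_adjust V1 V2 hinc c ((hCst c hc).2 h2) h2 fun y hy => harch y hy c hc
  · have h2' : ((c⁻¹ : Fˣ) : F) ∈ V2 := by
      rw [Units.val_inv_eq_inv_val]
      exact (V2.mem_or_inv_mem (c : F)).resolve_left h2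
    have hc' : c⁻¹ ∈ Cst := Subgroup.inv_mem _ hc
    obtain ⟨x, hx1, hx2⟩ := exists_adjust V1 V2 hinc c⁻¹ ((hCst _ hc').2 h2') h2'
      fun y hy => harch y hy _ hc'
    refine ⟨x⁻¹, Subgroup.inv_mem _ hx1, ?_⟩
    have e : x⁻¹ / c = (x / c⁻¹)⁻¹ := by
      rw [div_eq_mul_inv, div_eq_mul_inv, inv_inv, mul_inv]
    rw [e]
    exact Subgroup.inv_mem _ hx2

/-- **One representative with BOTH reductions equal to `1`.** -/
theorem exists_common_prin_rep (V1 V2 : ValuationSubring F) (hinc : Incomparable ![V1, V2])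
    (Cst : Subgroup Fˣ) (hunr : ∀ u : Fˣ, ∃ a ∈ Cst, u / a ∈ V2.unitGroup)
    (hCst : ∀ c ∈ Cst, ((c : Fˣ) : F) ∈ V1 ↔ ((c : Fˣ) : F) ∈ V2)
    (harch : ∀ y : F, V2.valuation y < 1 → ∀ c ∈ Cst,
      ∃ M : ℕ, V2.valuation (y ^ M) < V2.valuation ((c : Fˣ) : F))
    (m : ℕ) (hdiv : ∀ c ∈ Cst, ∃ d ∈ Cst, d ^ m = c)
    {u1 u2 v : Fˣ} (h1 : u1 ∈ Cst ⊔ V1.principalUnitGroup)
    (h2 : u2 ∈ Cst ⊔ V2.principalUnitGroup) (h : u1 = u2 * v ^ m) :
    ∃ t : Fˣ, ∃ c0 ∈ Cst, u1 / (c0 * t ^ m) ∈ V1.principalUnitGroup ∧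
      u1 / (c0 * t ^ m) ∈ V2.principalUnitGroup := by
  obtain ⟨t0, ht1, ht2⟩ := exists_common_rep V1 V2 hinc Cst hunr m h1 h2 h
  obtain ⟨c1, hc1, p1, hp1, e1⟩ := Subgroup.mem_sup.1 ht1
  obtain ⟨c2, hc2, p2, hp2, e2⟩ := Subgroup.mem_sup.1 ht2
  obtain ⟨d, hd, hdm⟩ := hdiv (c2 / c1) (Subgroup.div_mem _ hc2 hc1)
  obtain ⟨x, hx1, hx2⟩ := exists_adjust' V1 V2 hinc Cst hCst harch d hd
  refine ⟨t0 * x, c1, hc1, ?_, ?_⟩
  · have e : u1 / (c1 * (t0 * x) ^ m) = p1 / x ^ m := by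
      have : u1 = c1 * p1 * t0 ^ m := by rw [e1, div_mul_cancel]
      rw [this, mul_pow]
      refine Units.ext ?_
      have hc10 : ((c1 : Fˣ) : F) ≠ 0 := c1.ne_zero
      have ht0 : ((t0 : Fˣ) : F) ≠ 0 := t0.ne_zero
      have hx0 : ((x : Fˣ) : F) ≠ 0 := x.ne_zero
      simp only [Units.val_mul, Units.val_pow_eq_pow_val, Units.val_div_eq_div_val]
      field_simp
    rw [e]
    exact Subgroup.div_mem _ hp1 (Subgroup.pow_mem _ hx1 m)
  · have e : u1 / (c1 * (t0 * x) ^ m) = p2 / (x / d) ^ m := by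
      have h3 : u1 = c2 * p2 * t0 ^ m := by rw [e2, div_mul_cancel]
      have h4 : c2 = d ^ m * c1 := by rw [hdm, div_mul_cancel]
      rw [h3, h4, mul_pow, div_pow]
      refine Units.ext ?_
      have hc10 : ((c1 : Fˣ) : F) ≠ 0 := c1.ne_zero
      have ht0 : ((t0 : Fˣ) : F) ≠ 0 := t0.ne_zero
      have hx0 : ((x : Fˣ) : F) ≠ 0 := x.ne_zero
      have hd0 : ((d : Fˣ) : F) ≠ 0 := d.ne_zero
      simp only [Units.val_mul, Units.val_pow_eq_pow_val, Units.val_div_eq_div_val]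
      field_simp
    rw [e]
    exact Subgroup.div_mem _ hp2 (Subgroup.pow_mem _ hx2 m)

end Fermat.Agent.GK.MultiVal
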