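/-
GATE-K / K1-ABS part 11 (helper90): the norm-reduction formula for two reduction data on a finite
extension `F / K` of valued fields with `[F : K] ≤ [Ft1 : k] + [Ft2 : k]` — adapter between
`RelFree.exists_basis2` and helper66's abstract `NormRed.norm_red_prod`:

  `Nm_{F/K} u ∈ A` and `res (Nm_{F/K} u) = Nm_{Ft1/k} (red₁ u) * Nm_{Ft2/k} (red₂ u)`

for every `u ∈ Rw1 ⊓ Rw2` ((E1) of the S35 design; GATE-L 204(b) for two unramified components).
-/
import Mathlib
import Fermat.Agent.GK.MultiVal.RelFree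
import Fermat.Agent.GK.Norm.NormRed

set_option autoImplicit false

open Module

namespace Fermat.Agent.GK.MultiVal

open Fermat.Agent.GJ.J1

variable {K F k Ft1 Ft2 : Type*} [Field K] [Field F] [Algebra K F] [Field k]
  [Field Ft1] [Algebra k Ft1] [Field Ft2] [Algebra k Ft2]
  {R1 : RedData K F k Ft1} {R2 : RedData K F k Ft2}

/-- the residue map of the base, on the subring `A.toSubring` -/
def resSub (R : RedData K F k Ft1) : R.A.toSubring →+* k where
  toFun x := R.res ⟨x, x.2⟩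
  map_one' := map_one R.res
  map_mul' x y := map_mul R.res ⟨x, x.2⟩ ⟨y, y.2⟩
  map_zero' := map_zero R.res
  map_add' x y := map_add R.res ⟨x, x.2⟩ ⟨y, y.2⟩

/-- **Norm-reduction formula for two reduction data.** -/
theorem norm_red_two (hc : RedCompat R1 R2) (hne : R1.Rw ≠ R2.Rw) [FiniteDimensional K F]
    [FiniteDimensional k Ft1] [FiniteDimensional k Ft2]
    (hdeg : finrank K F ≤ finrank k Ft1 + finrank k Ft2) {u : F} (hu1 : u ∈ R1.Rw)
    (hu2 : u ∈ R2.Rw) :
    ∃ hN : Algebra.norm K u ∈ R1.A, R1.res ⟨Algebra.norm K u, hN⟩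
      = Algebra.norm k (R1.red ⟨u, hu1⟩) * Algebra.norm k (R2.red ⟨u, hu2⟩) := by
  classical
  let β1 := Module.finBasis k Ft1
  let β2 := Module.finBasis k Ft2
  obtain ⟨b, hbmem, hball, -, hinl, hinr⟩ := exists_basis2 hc hne β1 β2 (by simpa using hdeg)
  have hO'R : ∀ a ∈ R1.A.toSubring, algebraMap K F a ∈ ball2 R1 R2 := fun a ha =>
    mem_ball2.mpr ⟨(R1.algebraMap_mem_iff' a).mpr ha, (hc.mem_iff₂ a).mpr ha⟩
  have hrepr : ∀ x ∈ ball2 R1 R2, ∀ j, b.repr x j ∈ R1.A.toSubring := by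
    intro x hx
    have h1 := (hball (fun j => b.repr x j)).mp (by
      have := b.sum_repr x
      rw [this]
      exact hx)
    exact h1
  have hred1 : ∀ j, R1.IsRed (b j) ((β1.prod β2) j).1 := by
    rintro (m | m)
    · have := (hinl m).1
      simpa using this
    · have := (hinr m).1
      simpa using this
  have hred2 : ∀ j, R2.IsRed (b j) ((β1.prod β2) j).2 := by
    rintro (m | m)
    · have := (hinl m).2
      simpa using this
    · have := (hinr m).2
      simpa using this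
  obtain ⟨hN, h⟩ := Fermat.Agent.GK.NormRed.norm_red_prod b R1.A.toSubring (resSub R1)
    (ball2 R1 R2) ((RingHom.fst Ft1 Ft2).comp (red2 R1 R2))
    ((RingHom.snd Ft1 Ft2).comp (red2 R1 R2)) hbmem hrepr hO'R
    (fun a ha => by
      show R1.red ⟨algebraMap K F a, _⟩ = algebraMap k Ft1 (R1.res ⟨a, ha⟩)
      exact R1.red_algebraMap ⟨a, ha⟩)
    (fun a ha => by
      show R2.red ⟨algebraMap K F a, _⟩ = algebraMap k Ft2 (R1.res ⟨a, ha⟩)
      have ha2 : a ∈ R2.A := hc.A_eq ▸ ha
      rw [hc.res_eq a ha ha2]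
      exact R2.red_algebraMap ⟨a, ha2⟩)
    (β1.prod β2)
    (fun j => by
      obtain ⟨h1, e1⟩ := hred1 j
      obtain ⟨h2, e2⟩ := hred2 j
      show (β1.prod β2) j = (R1.red ⟨b j, _⟩, R2.red ⟨b j, _⟩)
      exact Prod.ext e1.symm e2.symm)
    (mem_ball2.mpr ⟨hu1, hu2⟩)
  exact ⟨hN, h⟩

/-- the same without finiteness instances on the residue fields (they are automatic) -/
theorem norm_red_two' (hc : RedCompat R1 R2) (hne : R1.Rw ≠ R2.Rw) [FiniteDimensional K F]
    (hdeg : finrank K F ≤ finrank k Ft1 + finrank k Ft2) {u : F} (hu1 : u ∈ R1.Rw)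
    (hu2 : u ∈ R2.Rw) :
    ∃ hN : Algebra.norm K u ∈ R1.A, R1.res ⟨Algebra.norm K u, hN⟩
      = Algebra.norm k (R1.red ⟨u, hu1⟩) * Algebra.norm k (R2.red ⟨u, hu2⟩) := by
  have h1 := R1.finrank_residue_le_of_finite.1
  have h2 := R2.finrank_residue_le_of_finite.1
  exact norm_red_two hc hne hdeg hu1 hu2

end Fermat.Agent.GK.MultiVal
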